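import Fermat.Agent.Semistable.Torsion
import Fermat.Agent.NewformLocal.Toric.Transfer
import Fermat.Agent.GaloisReps.Constructor

/-!
# Classes whose norms to level `M` are `p`-th powers

`NormPow y`: for every Kummer function `f` of the class `y`, the norms to level `M` of `f` and of
`w f` are `p`-th powers. It is enough to check this on one Kummer function.
-/

set_option autoImplicit false

noncomputable section

namespace Fermat.Agent.RT.AtP

open ModularCurve AlgebraicCurve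
open Fermat.Agent.Semistable
open Fermat.Agent.GaloisReps
open Fermat.Agent.JacTorsion (toTorsion divGrp)
open Fermat.Agent.NewformLocal.Toric (normUp)
open Arith (QBar)

variable {p M : ℕ} [Fact p.Prime] [NeZero M]

/-- The norms to level `M` of the Kummer functions of the class, and of their images by `w`, are
`p`-th powers. -/
def NormPow (hpM : ¬ p ∣ M) (y : JZero (p * M)) : Prop :=
  ∀ (D : Divisor.degZero (K := QBar) (F := FB (p * M))) (f : FB (p * M)), Pic0.mk D = y → f ≠ 0 →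
    (∀ v, v.ord f = (p : ℤ) * (D : Divisor QBar (FB (p * M))) v) →
    (∃ g : FB M, g ≠ 0 ∧ normUp p M f = g ^ p) ∧
      ∃ g : FB M, g ≠ 0 ∧ normUp p M (wEquiv p M hpM f) = g ^ p

/-- One Kummer function suffices. -/
theorem normPow_toTorsion (hpM : ¬ p ∣ M) (f : divGrp QBar (FB (p * M)) (p ^ 1))
    (h0 : ∃ g : FB M, g ≠ 0 ∧ normUp p M ((f : (FB (p * M))ˣ) : FB (p * M)) = g ^ p)
    (h1 : ∃ g : FB M, g ≠ 0 ∧
      normUp p M (wEquiv p M hpM ((f : (FB (p * M))ˣ) : FB (p * M))) = g ^ p) :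
    NormPow hpM ((toTorsion (Additive.ofMul f) : JTors (p * M) p 1) : JZero (p * M)) := by
  intro D f' hD hf' hord
  have : FF.IsFunctionField QBar (FB (p * M)) := ModFun.isFunctionField_bar (p * M)
  let D₀ : Divisor.degZero (K := QBar) (F := FB (p * M)) :=
    ⟨JacTorsion.divQuot f, JacTorsion.divQuot_mem_degZero f⟩
  have hD0 : Pic0.mk D = Pic0.mk D₀ := hD
  obtain ⟨u, hu0, hu⟩ := (mk_eq_zero_iff (D - D₀)).mp
    ((map_sub (QuotientAddGroup.mk' _) D D₀).trans (sub_eq_zero.mpr hD0))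
  set f₀ : FB (p * M) := ((f : (FB (p * M))ˣ) : FB (p * M)) with hf₀
  have hf₀0 : f₀ ≠ 0 := Units.ne_zero _
  have hord₀ : ∀ v, v.ord f₀ = (p : ℤ) * JacTorsion.divQuot f v := fun v => by
    rw [hf₀, ← FF.div_apply, ← JacTorsion.smul_divQuot f, Finsupp.smul_apply, smul_eq_mul]
    exact congrArg (fun z : ℕ => (z : ℤ) * JacTorsion.divQuot f v) (pow_one p)
  have hden : f₀ * u ^ p ≠ 0 := mul_ne_zero hf₀0 (pow_ne_zero _ hu0)
  obtain ⟨b, hb⟩ := FF.eq_algebraMap_of_ord_nonneg (K := QBar) (f := f' * (f₀ * u ^ p)⁻¹)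
    fun v => by
      rw [v.ord_mul hf' (inv_ne_zero hden), v.ord_inv, v.ord_mul hf₀0 (pow_ne_zero _ hu0),
        FF.ord_pow, hord, hord₀, ← hu v, AddSubgroup.coe_sub, Finsupp.sub_apply]
      linarith
  have hb0 : b ≠ 0 := fun h0 => mul_ne_zero hf' (inv_ne_zero hden) (by rw [hb, h0, map_zero])
  obtain ⟨c, hc⟩ := IsAlgClosed.exists_pow_nat_eq b (Fact.out : p.Prime).pos
  have hc0 : c ≠ 0 := fun h0 => hb0 (by rw [← hc, h0, zero_pow (Fact.out : p.Prime).ne_zero])
  set U := algebraMap QBar (FB (p * M)) c * u with hU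
  have hU0 : U ≠ 0 := mul_ne_zero ((map_ne_zero _).mpr hc0) hu0
  have he : f' = f₀ * U ^ p := by
    calc f' = f' * (f₀ * u ^ p)⁻¹ * (f₀ * u ^ p) := (inv_mul_cancel_right₀ hden f').symm
      _ = f₀ * U ^ p := by rw [hb, ← hc, map_pow, hU]; ring
  obtain ⟨g₀, hg₀, e₀⟩ := h0
  obtain ⟨g₁, hg₁, e₁⟩ := h1
  refine ⟨⟨g₀ * normUp p M U, mul_ne_zero hg₀ (NewformLocal.Toric.normUp_ne_zero hU0), ?_⟩,
    g₁ * normUp p M (wEquiv p M hpM U), mul_ne_zero hg₁
      (NewformLocal.Toric.normUp_ne_zero ((map_ne_zero _).mpr hU0)), ?_⟩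
  · rw [he, map_mul, map_pow, e₀, mul_pow]
  · rw [he, map_mul, map_pow, map_mul, map_pow, e₁, mul_pow]

end Fermat.Agent.RT.AtP

end
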