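import Fermat.Agent.OrdinaryAtP.Kummer
import Fermat.Agent.NewformLocal.Toric.Transfer

/-!
# The first order of a norm

For an integral function `Z` and a small constant `ε` the norm of `1 + ε Z` is `1 + ε Y` where the
reduction of `Y` is that of `Z` on the first component: the `p` twists on the other side add up to
a multiple of `p`.
-/

set_option autoImplicit false

noncomputable section

namespace Fermat.Agent.RT.AtP

open ModularCurve
open Fermat.Agent.Semistable Fermat.Agent.OrdinaryAtP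
open Fermat.Agent.NewformLocal.Toric (normUp qExpand_normUp twist_mem_locS)
open Arith (QBar)

/-- A product of `1 + e b` to first order. -/
theorem exists_prod_one_add {S : Type*} [CommRing S] {ι : Type*} (s : Finset ι) (e : S)
    (b : ι → S) : ∃ R, ∏ i ∈ s, (1 + e * b i) = 1 + e * ∑ i ∈ s, b i + e * (e * R) := by
  classical
  induction s using Finset.induction with
  | empty => exact ⟨0, by simp⟩
  | insert i s hi ih =>
    obtain ⟨R, hR⟩ := ih
    refine ⟨R + b i * ∑ j ∈ s, b j + e * b i * R, ?_⟩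
    rw [Finset.prod_insert hi, hR, Finset.sum_insert hi]
    ring

variable {A : ValuationSubring QBar} {p : ℕ} [hp : Fact p.Prime] [CharP (Res A) p]

omit [CharP (Res A) p] in
/-- A series is integral when its expansion in `q ^ p` is. -/
theorem mem_locS_of_qExpand (hA : A.LiesOverPrime p) {Y : LSer} (hY : Y ∈ fracS A)
    (hq : qExpand QBar p Y ∈ locS A) :
    ∃ h : Y ∈ locS A, qExpand (Res A) p (redL A ⟨Y, h⟩) = redL A ⟨_, hq⟩ := by
  suffices h : Y ∈ locS A from
    ⟨h, (redL_qExpand p h).symm.trans (redL_congr _ _ rfl)⟩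
  rcases eq_or_ne Y 0 with rfl | hY0
  · exact zero_mem _
  obtain ⟨d, hd0, hd, hdne⟩ := exists_scale hA hp.out hY hY0
  by_cases hdi : d⁻¹ ∈ A
  · have := mul_mem (algebraMap_mem_locS hdi) hd
    rwa [← mul_assoc, ← map_mul, inv_mul_cancel₀ hd0, map_one, one_mul] at this
  exfalso
  have hdA : d ∈ A := (A.mem_or_inv_mem d).resolve_right hdi
  have hdn : IsLocalRing.residue A ⟨d, hdA⟩ = 0 := by
    refine (residue_eq_zero_iff hdA).mpr ((ValuationSubring.mem_nonunits_iff A).mpr
      (lt_of_le_of_ne ((A.valuation_le_one_iff _).mpr hdA) fun h1 => hdi ?_))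
    rw [← A.valuation_le_one_iff, map_inv₀, h1, inv_one]
  obtain ⟨hm, e⟩ := redL_const_mul hdA hq
  rw [hdn, map_zero, zero_mul] at e
  refine hdne ((qExpand_injective (R := Res A) p) ?_)
  rw [map_zero, ← redL_qExpand p hd,
    redL_congr _ hm (show qExpand QBar p (algebraMap QBar LSer d * Y) = _ by
      rw [map_mul, qExpand_const]), e]

variable {M : ℕ} [NeZero M]

/-- `w` is linear. -/
theorem wEquiv_smul (hpM : ¬ p ∣ M) (c : QBar) (x : FB (p * M)) :
    wEquiv p M hpM (c • x) = c • wEquiv p M hpM x := by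
  rw [Algebra.smul_def, map_mul, AlgEquiv.commutes, ← Algebra.smul_def]

/-- The inclusion is linear. -/
theorem upF_smul (c : QBar) (x : FB M) : upF M p (c • x) = c • upF M p x := by
  rw [Algebra.smul_def, map_mul, AlgHom.commutes, ← Algebra.smul_def]

variable [FF.IsFunctionField (Res A) (KM A M)] (h : Setup A M p)
include h

omit [FF.IsFunctionField (Res A) (KM A M)] in
/-- **The norm of `1 + ε Z`.** -/
theorem exists_normUp_one_add {ε : QBar} (hε : ε ≠ 0) (hεn : ε ∈ A.nonunits) (Z : Oh h) :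
    ∃ (Y : FB M) (hm : upF M p Y ∈ Oh h),
      normUp p M (1 + ε • (Z : FB (p * M))) = 1 + ε • Y ∧
      redh h ⟨_, hm⟩ = ![redh h Z 0, qExpand (Res A) p (redh h Z 0)] := by
  -- in `q ^ p` the norm is a product over the twists
  obtain ⟨ζ₀, hζ₀⟩ := HasEnoughRootsOfUnity.exists_primitiveRoot QBar p
  set ζ : QBarˣ := (hζ₀.isUnit hp.out.ne_zero).unit with hζdef
  have hζ : IsPrimitiveRoot ζ p := IsPrimitiveRoot.coe_units_iff.mp (by simpa [hζdef] using hζ₀)
  have hroot : ∀ i : ℕ, (ζ ^ i) ^ p = 1 := fun i => by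
    rw [← pow_mul, mul_comm, pow_mul, hζ.pow_eq_one, one_pow]
  obtain ⟨hZ0, hZ1⟩ := (mem_loc2_iff M p h.hqM).mp Z.2
  choose htw hrtw using fun i : Fin p => twist_mem_locS (ζ ^ (i : ℕ)) (hroot i) hZ1
  have hεA := Arith.mem_of_mem_nonunits hεn
  set ee : locS A := ⟨_, algebraMap_mem_locS hεA⟩ with hee
  set a : locS A := ⟨_, qExpand_mem_locS p hZ0⟩ with ha
  set b : Fin p → locS A := fun i => ⟨_, htw i⟩ with hb
  -- expand it as `1 + ε V`
  obtain ⟨R, hR⟩ := exists_prod_one_add Finset.univ ee b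
  set V : locS A := a + ∑ i, b i + ee * (a * ∑ i, b i + R + ee * (a * R)) with hV
  have hVeq : (1 + ee * a) * ∏ i, (1 + ee * b i) = 1 + ee * V := by
    rw [hR, hV]; ring
  set Y : FB M := ε⁻¹ • (normUp p M (1 + ε • (Z : FB (p * M))) - 1) with hY
  have hαε : algebraMap QBar LSer ε ≠ 0 := (map_ne_zero _).mpr hε
  have hsm : ∀ {N : ℕ} (c : QBar) (x : FB N),
      ((c • x : FB N) : LSer) = algebraMap QBar LSer c * (x : LSer) := fun {N} c x => by
    rw [Algebra.smul_def]; rfl
  -- the expansion of the norm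
  have hexp : qExpand QBar p (normUp p M (1 + ε • (Z : FB (p * M))) : LSer) =
      ((1 + ee * a) * ∏ i, (1 + ee * b i) : locS A) := by
    rw [qExpand_normUp p M h.hqM hζ, Subring.coe_mul, SubmonoidClass.coe_finsetProd]
    congr 1
    · rw [AddMemClass.coe_add, OneMemClass.coe_one, hsm, map_add, map_mul, map_one, qExpand_const]
      rfl
    · refine Finset.prod_congr rfl fun i _ => ?_
      rw [map_add, map_one, wEquiv_smul, AddMemClass.coe_add, OneMemClass.coe_one, hsm, map_add,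
        map_mul, map_one, twist_const]
      rfl
  have hqY : qExpand QBar p (Y : LSer) = (V : LSer) := by
    rw [hY, hsm, map_mul, qExpand_const, AddSubgroupClass.coe_sub, OneMemClass.coe_one, map_sub,
      map_one, hexp, hVeq]
    show algebraMap QBar LSer ε⁻¹ * (1 + algebraMap QBar LSer ε * (V : LSer) - 1) = _
    rw [map_inv₀, add_sub_cancel_left, inv_mul_cancel_left₀ hαε]
  obtain ⟨hYm, hYr⟩ := mem_locS_of_qExpand (p := p) h.hA (mem_fracS_of_mem Y)
    (hqY ▸ V.2)
  -- the `p` twists have equal reductions, so their sum vanishes mod `𝔪`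
  have hb' : ∀ i, redL A (b i) = redL A ⟨_, hZ1⟩ := hrtw
  have he0 : redL A ee = 0 := by
    obtain ⟨h', e'⟩ := redL_const_mul hεA (one_mem (locS A))
    rw [(residue_eq_zero_iff hεA).mpr hεn, map_zero, zero_mul] at e'
    rwa [redL_congr _ (algebraMap_mem_locS hεA) (mul_one _)] at e'
  have : CharP (LaurentSeries (Res A)) p :=
    charP_of_injective_algebraMap (algebraMap (Res A) (LaurentSeries (Res A))).injective p
  have hVr : redL A V = qExpand (Res A) p (redh h Z 0) := by
    rw [hV, map_add, map_mul (redL A) ee, he0, zero_mul, add_zero, map_add, map_sum,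
      Finset.sum_congr rfl fun i _ => hb' i, Finset.sum_const, Finset.card_univ, Fintype.card_fin,
      nsmul_eq_mul, CharP.cast_eq_zero, zero_mul, add_zero, ha, redL_qExpand p hZ0]
    rfl
  -- hence `Y` has the reduction of `Z`
  have hz0 : redL A ⟨(Y : LSer), hYm⟩ = redh h Z 0 :=
    qExpand_injective p (hYr.trans ((redL_congr _ V.2 hqY).trans hVr))
  refine ⟨Y, upF_mem_loc2 M p h.hqM ((mem_loc1 M).mpr hYm), ?_, ?_⟩
  · rw [hY, smul_smul, mul_inv_cancel₀ hε, one_smul, add_sub_cancel]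
  · refine (red2_upF M p h.hqM ⟨Y, (mem_loc1 M).mpr hYm⟩).trans ?_
    rw [red1_eq, hz0]

omit [FF.IsFunctionField (Res A) ↥(KM A M)] in
/-- The norm of a function congruent to one. -/
theorem IsOne.normUp {z : FB (p * M)} (hz : IsOne h z) :
    IsOne h (upF M p (normUp p M z)) := by
  obtain ⟨ν, hν0, hνn, hν⟩ := exists_small_of_red_zero h (⟨z, hz.1⟩ - 1) (by
    rw [map_sub, map_one, hz.2, sub_self])
  obtain ⟨Y, hm, e, -⟩ := exists_normUp_one_add h hν0 hνn
    ⟨ν⁻¹ • ((⟨z, hz.1⟩ - 1 : Oh h) : FB (p * M)), hν⟩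
  have ez : z = 1 + ν • (ν⁻¹ • ((⟨z, hz.1⟩ - 1 : Oh h) : FB (p * M))) := by
    rw [smul_smul, mul_inv_cancel₀ hν0, one_smul]
    simp
  rw [← ez] at e
  refine (isOne_one h).of_sub_small h hν0 hνn ?_
  rw [e, map_add, map_one, upF_smul, add_sub_cancel_left]
  exact smul_mem_small (by rw [inv_mul_cancel₀ hν0]; exact one_mem A) hm

omit [FF.IsFunctionField (Res A) (KM A M)] in
/-- A `p`-th root of a function congruent to one is congruent to one. -/
theorem isOne_of_pow {z : FB (p * M)} (hz : IsOne h (z ^ p)) : IsOne h z := by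
  have key : ∀ s, ∃ hm : iota2 M p h.hqM s z ∈ locS A, redL A ⟨_, hm⟩ = 1 := by
    intro s
    have hmem : iota2 M p h.hqM s z ^ p ∈ locS A := by
      rw [← map_pow]; exact (mem_loc2 _).mp hz.1 s
    have hred : redL A ⟨_, hmem⟩ = 1 := by
      rw [redL_congr _ ((mem_loc2 _).mp hz.1 s) (map_pow _ _ _).symm]
      exact congrFun hz.2 s
    have hm := mem_locS_of_pow h.hA hp.out (iota2_fracS (A := A) M p h.hqM s z) hp.out.ne_zero
      hmem (by rw [hred]; exact one_ne_zero)
    refine ⟨hm, series_eq_one_of_pow ?_⟩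
    rw [← map_pow]
    exact hred
  choose hm hr using key
  exact ⟨(mem_loc2 _).mpr hm, funext fun s => hr s⟩

omit [CharP (Res A) p] [FF.IsFunctionField (Res A) (KM A M)] in
/-- Both sides exchanged. -/
theorem exists_wEquiv_mem (Z : Oh h) : ∃ hm : wEquiv p M h.hqM (Z : FB (p * M)) ∈ Oh h,
    redh h ⟨_, hm⟩ = ![redh h Z 1, redh h Z 0] := by
  obtain ⟨hZ0, hZ1⟩ := (mem_loc2_iff M p h.hqM).mp Z.2
  have e : (wEquiv p M h.hqM (wEquiv p M h.hqM (Z : FB (p * M))) : LSer) =
      ((Z : FB (p * M)) : LSer) := congrArg Subtype.val (wEquiv_wEquiv p M h.hqM _)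
  refine ⟨(mem_loc2_iff M p h.hqM).mpr ⟨hZ1, e ▸ hZ0⟩, funext fun s => ?_⟩
  rw [show ∀ hm, redh h ⟨wEquiv p M h.hqM (Z : FB (p * M)), hm⟩ s = redL A ⟨_, (mem_loc2 _).mp hm s⟩
    from fun hm => red2_apply _ _ s]
  fin_cases s
  · exact (redL_congr _ hZ1 rfl).trans (red2_apply (iota2 M p h.hqM) Z 1).symm
  · exact (redL_congr _ hZ0 e).trans (red2_apply (iota2 M p h.hqM) Z 0).symm

omit [CharP (Res A) p] [FF.IsFunctionField (Res A) (KM A M)] in
theorem IsOne.wEquiv {z : FB (p * M)} (hz : IsOne h z) : IsOne h (wEquiv p M h.hqM z) := by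
  obtain ⟨hm, e⟩ := exists_wEquiv_mem h ⟨z, hz.1⟩
  refine ⟨hm, e.trans ?_⟩
  rw [hz.2]
  funext s
  fin_cases s <;> rfl

end Fermat.Agent.RT.AtP

end
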