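import Fermat.Agent.RT.AtP.Mult.Special
import Fermat.Agent.OrdinaryAtP.Charts
import Fermat.Agent.NewformLocal.Toric.Transfer

/-!
# Where the norms are regular

The norm to level `M` of a function regular on the fibre of a place is regular at that place, with
bounds: the norms of functions on the charts of level `p M` lie on the charts of level `M`.
-/

set_option autoImplicit false

noncomputable section

namespace Fermat.Agent.RT.AtP

open ModularCurve AlgebraicCurve
open Fermat.Agent.Semistable
open Fermat.Agent.OrdinaryAtP (jF infSp mem_infSp)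
open Fermat.Agent.NewformLocal.Toric (normUp normUp_ne_zero)
open Arith (QBar)

variable {p M : ℕ} [hp : Fact p.Prime] [NeZero M]

/-- A place of level `M` under a place of level `p M`. -/
abbrev below (w : Place QBar (FB (p * M))) : Place QBar (FB M) :=
  w.restrictAlong (upF M p) (FF.isIntegralAlong (upF M p))

theorem ram_pos (w : Place QBar (FB (p * M))) :
    (0 : ℤ) < w.ramificationIndexAlong (upF M p) := by
  let := algebraAlong (upF M p)
  have := isScalarTower_along (upF M p)
  have := isIntegral_along (upF M p) (FF.isIntegralAlong (upF M p))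
  exact_mod_cast w.ramificationIndex_pos (F := FB M)

theorem ord_upF (w : Place QBar (FB (p * M))) (x : FB M) :
    w.ord (upF M p x) = w.ramificationIndexAlong (upF M p) * (below w).ord x :=
  Place.ord_restrictAlong (upF M p) (FF.isIntegralAlong (upF M p)) w x

variable (hpM : ¬ p ∣ M)
include hpM

/-- **The order of a norm.** -/
theorem le_ord_normUp {v : Place QBar (FB M)} {z : FB (p * M)} (hz : z ≠ 0) {c : ℤ}
    (h : ∀ w, below w = v → c * w.ramificationIndexAlong (upF M p) ≤ w.ord z) :
    ((p : ℤ) + 1) * c ≤ v.ord (normUp p M z) := by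
  show _ ≤ v.ord (letI := algebraAlong (upF M p); Algebra.norm (FB M) z)
  rw [FF.ord_norm_along (upF M p) (FF.isIntegralAlong (upF M p)) v hz]
  have hfi := FF.fundamental_identity_along (upF M p) (FF.isIntegralAlong (upF M p)) v
  rw [NewformLocal.Toric.finrankAlong_upF p M hpM] at hfi
  push_cast at hfi
  calc ((p : ℤ) + 1) * c
      = ∑ w ∈ Place.fiberAlong (upF M p) (FF.isIntegralAlong (upF M p)) v,
          c * w.ramificationIndexAlong (upF M p) *
            (w.inertiaDegAlong (upF M p) (FF.isIntegralAlong (upF M p)) : ℤ) := by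
        rw [← hfi, Finset.sum_mul]
        exact Finset.sum_congr rfl fun w _ => by ring
    _ ≤ _ := Finset.sum_le_sum fun w hw => mul_le_mul_of_nonneg_right
        (h w (Place.mem_fiberAlong.mp hw)) (Int.natCast_nonneg _)

/-- A `p`-th root of the norm of a function regular off the cusps is regular off the cusps, with
bounded poles at them. -/
theorem mem_HM_of_pow {n : ℕ} {z : FB (p * M)} (hz : z ∈ HN M p n) (hz0 : z ≠ 0) {G : FB M}
    (hG : G ^ p = normUp p M z) : G ∈ HM M ((p + 1) * n) := by
  rw [RedTorsion.mem_polesSpace]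
  intro v
  refine FF.mem_ordGe_of_le v ?_
  have h1 := le_ord_normUp hpM (v := v) hz0 (c := -((n : ℤ) * max 0 (-v.ord (jM M))))
    fun w hw => by
    have h2 := FF.le_ord_of_mem_ordGe w hz0 (RedTorsion.mem_polesSpace.mp hz w)
    rw [FF.poles_apply, ord_upF, hw] at h2
    have he : (0 : ℤ) ≤ w.ramificationIndexAlong (upF M p) := Int.natCast_nonneg _
    rcases le_or_gt 0 (v.ord (jM M)) with hv | hv
    · rw [max_eq_left (neg_nonpos.mpr hv)]
      rw [max_eq_left (neg_nonpos.mpr (mul_nonneg he hv))] at h2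
      simpa using h2
    · rw [max_eq_right (by omega)]
      rw [max_eq_right (neg_nonneg.mpr (mul_nonpos_of_nonneg_of_nonpos he hv.le))] at h2
      linarith
  rw [← hG, FF.ord_pow] at h1
  rw [FF.poles_apply]
  have hm : (0 : ℤ) ≤ max 0 (-v.ord (jM M)) := le_max_left _ _
  have hn : (0 : ℤ) ≤ ((p : ℤ) + 1) * n * max 0 (-v.ord (jM M)) := by positivity
  have hp1 : (1 : ℤ) ≤ p := by exact_mod_cast hp.out.pos
  push_cast
  nlinarith

variable {A : ValuationSubring QBar} [CharP (Res A) p] [FF.IsFunctionField (Res A) (KM A M)]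
  (hS : Setup A M p)

omit [CharP (Res A) p] [FF.IsFunctionField (Res A) ↥(KM A M)] in
/-- A `p`-th root of the norm of a function on the chart at infinity lies on the chart at
infinity. -/
theorem mem_infSp_of_pow {n : ℕ} {z : FB (p * M)} (hz : z ∈ infSp hS 0 n) (hz0 : z ≠ 0) {G : FB M}
    (hG : G ^ p = normUp p M z) : upF M p G ∈ infSp hS 0 ((p + 1) * n) := by
  rw [mem_infSp, HD_zero] at hz ⊢
  have hJ : jF p M ≠ 0 := OrdinaryAtP.jF_ne_zero
  rw [RedTorsion.mem_polesSpace]
  intro w
  refine FF.mem_ordGe_of_le w ?_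
  have hG0 : G ≠ 0 := fun h0 => normUp_ne_zero hz0 (by rw [← hG, h0, zero_pow hp.out.ne_zero])
  set v := below w with hv
  -- the norm has order bounded below by the poles of `j`
  have h1 := le_ord_normUp hpM (v := v) hz0 (c := -((n : ℤ) * max 0 (v.ord (jM M))))
    fun w' hw' => by
    have h2 := FF.le_ord_of_mem_ordGe w' (mul_ne_zero (pow_ne_zero _ hJ) hz0)
      (RedTorsion.mem_polesSpace.mp hz w')
    rw [FF.poles_apply, w'.ord_mul (pow_ne_zero _ hJ) hz0, FF.ord_pow,
      show w'.ord (jF p M) = _ from ord_upF w' (jM M), show w'.ord (upF M p (jM M)) = _ from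
        ord_upF w' (jM M), hw'] at h2
    have he : (0 : ℤ) ≤ w'.ramificationIndexAlong (upF M p) := Int.natCast_nonneg _
    rcases le_or_gt 0 (v.ord (jM M)) with hv | hv
    · rw [max_eq_right hv]
      rw [max_eq_left (neg_nonpos.mpr (mul_nonneg he hv))] at h2
      linarith
    · rw [max_eq_left hv.le]
      rw [max_eq_right (neg_nonneg.mpr (mul_nonpos_of_nonneg_of_nonpos he hv.le))] at h2
      linarith
  rw [← hG, FF.ord_pow] at h1
  have he : (0 : ℤ) ≤ w.ramificationIndexAlong (upF M p) := Int.natCast_nonneg _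
  have hp1 : (1 : ℤ) ≤ p := by exact_mod_cast hp.out.pos
  have hn : (0 : ℤ) ≤ ((p : ℤ) + 1) * n * max 0 (v.ord (jM M)) := by
    have : (0 : ℤ) ≤ max 0 (v.ord (jM M)) := le_max_left _ _
    positivity
  -- so has `G`, its order being a `p`-th of that
  have hGv : -(((p : ℤ) + 1) * n * max 0 (v.ord (jM M))) ≤ v.ord G := by
    rcases le_total 0 (v.ord G) with h0 | h0
    · linarith
    · have := mul_le_mul_of_nonpos_right hp1 h0
      linarith
  -- pull back to `w`
  have eJ : w.ord (jF p M) = w.ramificationIndexAlong (upF M p) * v.ord (jM M) := ord_upF w (jM M)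
  have eJ' : w.ord (upF M p (jM M)) = w.ramificationIndexAlong (upF M p) * v.ord (jM M) :=
    ord_upF w (jM M)
  have eG : w.ord (upF M p G) = w.ramificationIndexAlong (upF M p) * v.ord G := ord_upF w G
  have hUG : upF M p G ≠ 0 := (map_ne_zero (upF M p)).mpr hG0
  rw [FF.poles_apply, w.ord_mul (pow_ne_zero _ hJ) hUG, FF.ord_pow, eJ, eJ', eG]
  push_cast
  rcases le_or_gt 0 (v.ord (jM M)) with hv | hv
  · rw [max_eq_left (neg_nonpos.mpr (mul_nonneg he hv))]
    rw [max_eq_right hv] at hGv
    linarith [mul_le_mul_of_nonneg_left hGv he]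
  · rw [max_eq_right (neg_nonneg.mpr (mul_nonpos_of_nonneg_of_nonpos he hv.le))]
    rw [max_eq_left hv.le] at hGv
    linarith [mul_le_mul_of_nonneg_left hGv he]

/-- The norm of `j (p τ)` has at most the poles of `j ^ (p + 1)`. -/
theorem normU_mem_HM : normU p M hpM ∈ HM M (p + 1) := by
  obtain ⟨c, hc, e⟩ := exists_normU_eq p M hpM
  rw [e, Polynomial.aeval_eq_sum_range]
  refine Submodule.sum_mem _ fun i hi => Submodule.smul_mem _ _ ?_
  refine RedTorsion.polesSpace_mono (show i ≤ p + 1 by
    have := Finset.mem_range.mp hi; omega) ?_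
  rw [RedTorsion.mem_polesSpace]
  intro v
  refine FF.mem_ordGe_of_le v ?_
  rw [FF.ord_pow, FF.poles_apply]
  nlinarith [le_max_right (0 : ℤ) (-v.ord (jM M)), Int.natCast_nonneg i]

omit [CharP (Res A) p] [FF.IsFunctionField (Res A) (KM A M)] in
theorem normU_ne_zero : normU p M hpM ≠ 0 :=
  normUp_ne_zero ((map_ne_zero _).mpr fun h =>
    jqModC_ne_zero_of_nontrivial QBar (by rw [← coe_jM M, h]; rfl))

omit [CharP (Res A) p] [FF.IsFunctionField (Res A) ↥(KM A M)] in
/-- For `z` on the chart at infinity, a `p`-th root of the norm of `w z` becomes regular off the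
cusps after multiplication by a power of the norm of `j (p τ)`. -/
theorem mem_HM_of_pow_wEquiv {n : ℕ} {z : FB (p * M)} (hz : z ∈ infSp hS 0 (p * n))
    (hz0 : z ≠ 0) {G : FB M} (hG : G ^ p = normUp p M (wEquiv p M hpM z)) :
    normU p M hpM ^ n * G ∈ HM M ((p + 1) * n) := by
  rw [mem_infSp, HD_zero] at hz
  have hJ : jF p M ≠ 0 := OrdinaryAtP.jF_ne_zero
  set U := downF M p hpM (jM M) with hU
  have hU0 : U ≠ 0 := (map_ne_zero _).mpr fun h =>
    jqModC_ne_zero_of_nontrivial QBar (by rw [← coe_jM M, h]; rfl)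
  have hwz0 : wEquiv p M hpM z ≠ 0 := (map_ne_zero _).mpr hz0
  -- `S = w (J ^ (p n) z)` has poles bounded by those of `U = w J`
  set S := wEquiv p M hpM (jF p M ^ (p * n) * z) with hSdef
  have hS' : S = U ^ (p * n) * wEquiv p M hpM z := by
    rw [hSdef, map_mul, map_pow]; rfl
  have hS0 : S ≠ 0 := by rw [hS']; exact mul_ne_zero (pow_ne_zero _ hU0) hwz0
  have hSord : ∀ w : Place QBar (FB (p * M)),
      -(((p * n : ℕ) : ℤ) * max 0 (-w.ord U)) ≤ w.ord S := fun w =>
    FF.le_ord_of_mem_ordGe w hS0 (map_mem_ordGe (wEquiv p M hpM).toAlgHom hz w)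
  have hG0 : G ≠ 0 := fun h0 => normUp_ne_zero hwz0 (by rw [← hG, h0, zero_pow hp.out.ne_zero])
  have he0 := normU_ne_zero (M := M) hpM
  -- its norm is the `p`-th power of the product in question
  have hNS : normUp p M S = (normU p M hpM ^ n * G) ^ p := by
    rw [hS', map_mul, map_pow, ← hG, mul_pow, ← pow_mul, mul_comm p n]
    rfl
  rw [RedTorsion.mem_polesSpace]
  intro v
  refine FF.mem_ordGe_of_le v ?_
  rw [FF.poles_apply]
  have hp1 : (1 : ℤ) ≤ p := by exact_mod_cast hp.out.pos
  push_cast
  -- off the cusps `S` is regular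
  rcases le_or_gt 0 (v.ord (jM M)) with hv | hv
  · have h1 := le_ord_normUp hpM (v := v) hS0 (c := 0) fun w hw => by
      have hJw : 0 ≤ w.ord (upF M p (jM M)) := by
        rw [ord_upF, hw]; exact mul_nonneg (Int.natCast_nonneg _) hv
      have h2 := hSord w
      rw [max_eq_left (neg_nonpos.mpr ((ord_downF_jM M p hpM w).1 hJw))] at h2
      simpa using h2
    rw [hNS, FF.ord_pow] at h1
    rw [max_eq_left (neg_nonpos.mpr hv)]
    nlinarith
  -- at a cusp `w z` is regular, hence `G`
  · have h1 := le_ord_normUp hpM (v := v) hwz0 (c := 0) fun w hw => by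
      have hJw : w.ord (upF M p (jM M)) < 0 := by
        rw [ord_upF, hw]
        exact mul_neg_of_pos_of_neg (ram_pos w) hv
      have h2 := hSord w
      rw [hS', w.ord_mul (pow_ne_zero _ hU0) hwz0, FF.ord_pow,
        max_eq_right (neg_nonneg.mpr ((ord_downF_jM M p hpM w).2 hJw).1.le)] at h2
      push_cast at h2 ⊢
      linarith
    rw [← hG, FF.ord_pow] at h1
    have h4 := FF.le_ord_of_mem_ordGe v he0 (RedTorsion.mem_polesSpace.mp (normU_mem_HM hpM) v)
    rw [FF.poles_apply, max_eq_right (by omega)] at h4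
    rw [v.ord_mul (pow_ne_zero _ he0) hG0, FF.ord_pow, max_eq_right (by omega)]
    push_cast at h4
    have hGn : 0 ≤ v.ord G := by nlinarith
    nlinarith [mul_le_mul_of_nonneg_left h4 (Int.natCast_nonneg n)]

end Fermat.Agent.RT.AtP

end
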