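import Fermat.Agent.OrdinaryAtP.Quot
import Fermat.Agent.RT.AtP.Mult.Places

/-!
# Classes on the special fibre split over the two charts

The reduction of the scaled difference of functions on the two charts lies in the sum of the
reductions of the charts. A reduction on the overlap which splits on each component, and whose
`p`-th power splits, splits: the Frobenius is injective on the classes supported on the meeting
points.
-/

set_option autoImplicit false

noncomputable section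

namespace Fermat.Agent.RT.AtP

open ModularCurve
open Fermat.Agent.Semistable Fermat.Agent.OrdinaryAtP Fermat.Agent.RT.Mazur
open Arith (QBar)

attribute [local instance 10000] SubalgebraClass.toAlgebra HahnSeries.powerSeriesAlgebra

variable {A : ValuationSubring QBar} {p M : ℕ} [NeZero M] [hp : Fact p.Prime] [CharP (Res A) p]
  [FF.IsFunctionField (Res A) (KM A M)]

omit [NeZero M] in
/-- Raising the pole bound by a power of `j`. -/
theorem jq_pow_mul_mem_HkS (e : ℕ) {n : ℕ} {z : LaurentSeries (Res A)} (hz : z ∈ HkS A M n) :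
    jqModC (Res A) ^ e * z ∈ HkS A M (e + n) := by
  obtain ⟨hz', hz''⟩ := (mem_HkS A M).mp hz
  have : jqModC (Res A) ^ e * z = (((jK A M) ^ e * ⟨z, hz'⟩ : KM A M) : LaurentSeries (Res A)) := by
    rw [IntermediateField.coe_mul, IntermediateField.coe_pow, coe_jK]
  rw [this]
  exact coe_mem_HkS.mpr (mul_mem_polesSpace (jK_pow_mem_Hk e) hz'')

omit [NeZero M] in
theorem pow_mem_Pk {K : ℕ} {r : Fin 2 → LaurentSeries (Res A)} (hr : r ∈ Pk A M p K) :
    ∀ n : ℕ, r ^ n ∈ Pk A M p (n * K)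
  | 0 => by
    rw [pow_zero, zero_mul]
    have h := jPow_mem_Pk (A := A) (M := M) (q := p) 0
    rwa [show jPow A p 0 = 1 by funext s; fin_cases s <;> simp [jPow]] at h
  | n + 1 => by
    rw [pow_succ, Nat.succ_mul]
    exact mul_mem_Pk (pow_mem_Pk hr n) hr

omit [NeZero M] in
/-- Bounded functions without poles are constants. -/
theorem exists_const_of_mem_HkS {n : ℕ} {z : LaurentSeries (Res A)} (hz : z ∈ HkS A M n)
    (hn : n = 0) :
    ∃ β : Res A, z = algebraMap (Res A) (LaurentSeries (Res A)) β := by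
  have := Arith.residueField_isAlgClosed A
  subst hn
  obtain ⟨hz', hz''⟩ := (mem_HkS A M).mp hz
  obtain ⟨β, hβ⟩ := FF.eq_algebraMap_of_ord_nonneg (K := Res A) (f := (⟨z, hz'⟩ : KM A M))
    fun v => by
      rcases eq_or_ne (⟨z, hz'⟩ : KM A M) 0 with h0 | h0
      · rw [h0, v.ord_zero]
      · have := FF.le_ord_of_mem_ordGe v h0 (RedTorsion.mem_polesSpace.mp hz'' v)
        simpa using this
  exact ⟨β, congrArg Subtype.val hβ⟩

/-- A function regular away from the cusps plus one regular away from the zeros of `j`. -/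
def SplitsAt (M : ℕ) [NeZero M] [FF.IsFunctionField (Res A) (KM A M)]
    (z : LaurentSeries (Res A)) : Prop :=
  ∃ (K : ℕ) (r v : LaurentSeries (Res A)),
    z = r + v ∧ r ∈ HkS A M K ∧ jqModC (Res A) ^ K * v ∈ HkS A M K

theorem SplitsAt.exists_of_le {z : LaurentSeries (Res A)} (hz : SplitsAt M z) :
    ∃ K₀, ∀ K, K₀ ≤ K → ∃ r v, z = r + v ∧ r ∈ HkS A M K ∧ jqModC (Res A) ^ K * v ∈ HkS A M K := by
  obtain ⟨K₀, r, v, e, hr, hv⟩ := hz
  refine ⟨K₀, fun K hK => ⟨r, v, e, HkS_mono A M hK hr, ?_⟩⟩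
  obtain ⟨d, rfl⟩ := Nat.exists_eq_add_of_le hK
  rw [add_comm K₀ d, pow_add, mul_assoc]
  exact jq_pow_mul_mem_HkS d hv

variable (h : Setup A M p)
include h

theorem exists_splitsAt_of_mem {K : ℕ} {u : Fin 2 → LaurentSeries (Res A)}
    (hu : u ∈ RedF h K ⊔ RedI h K) : SplitsAt M (u 0) := by
  obtain ⟨r, hr, v, hv, rfl⟩ := Submodule.mem_sup.mp hu
  rw [RedF_eq] at hr
  rw [mem_RedI] at hv
  exact ⟨K, r 0, v 0, rfl, ((mem_Pk A M).mp (Bn_le_Pk M p h.hqM h.hA h.hM _ hr)).1,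
    ((mem_Pk A M).mp (Bn_le_Pk M p h.hqM h.hA h.hM _ hv)).1⟩

variable {g : ℕ} {η : Fin g → FB (p * M)}

omit [CharP (Res A) p] [FF.IsFunctionField (Res A) ↥(KM A M)] in
/-- **The scaled difference of the two charts splits.** -/
theorem red_diff_mem_sup (hη : Completes h η) {K : ℕ} {P Q : FB (p * M)} (hP : P ∈ HD M p 0 K)
    (hQ : Q ∈ infSp h 0 K) {ε : QBar} (hd : Q - P ∈ small A (iota2 M p h.hqM) ε) :
    redh h ⟨ε⁻¹ • (Q - P), hd⟩ ∈ RedF h K ⊔ RedI h K := by
  obtain ⟨κ, h1, h2, -⟩ := hη.indep K (-P) Q 0 ε (neg_mem hP) hQ (by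
    simpa [sub_eq_neg_add] using hd)
  have e : (⟨ε⁻¹ • (Q - P), hd⟩ : Oh h) = ⟨_, h1⟩ + ⟨_, h2⟩ := Subtype.ext (by
    show ε⁻¹ • (Q - P) = ε⁻¹ • (-P - κ • 1) + ε⁻¹ • (Q + κ • 1)
    rw [← smul_add]
    congr 1
    abel)
  rw [e, map_add]
  exact Submodule.add_mem_sup
    (mem_redSub.mpr ⟨⟨_, h1⟩, Submodule.smul_mem _ _
      (sub_mem (neg_mem hP) (Submodule.smul_mem _ _ (one_mem_HD K))), rfl⟩)
    (mem_redSub.mpr ⟨⟨_, h2⟩, Submodule.smul_mem _ _
      (add_mem hQ (Submodule.smul_mem _ _ (one_mem_infSp h K))), rfl⟩)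

omit [CharP (Res A) p] [FF.IsFunctionField (Res A) ↥(KM A M)] in
/-- The reductions of the completing family are independent of the two charts. -/
theorem coeff_mem_nonunits (hη : Completes h η) {c : Fin g → QBar}
    (hm : ∑ i, c i • η i ∈ Oh h) {K : ℕ} (hs : redh h ⟨_, hm⟩ ∈ RedF h K ⊔ RedI h K) (i : Fin g) :
    c i ∈ A.nonunits := by
  obtain ⟨r, hr, v, hv, e⟩ := Submodule.mem_sup.mp hs
  obtain ⟨x, hx, rfl⟩ := mem_redSub.mp hr
  obtain ⟨t, ht, rfl⟩ := mem_redSub.mp hv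
  obtain ⟨ν, hν0, hνn, hν⟩ := exists_small_of_red_zero h (⟨_, hm⟩ - x - t) (by
    rw [map_sub, map_sub, ← e, add_sub_cancel_left, sub_self])
  obtain ⟨κ, -, -, hc⟩ := hη.indep K (-(x : FB (p * M))) (-(t : FB (p * M))) c ν (neg_mem hx)
    (neg_mem ht) (by
      convert hν using 1
      push_cast
      abel)
  exact DvdA.mem_nonunits hν0 hνn (hc i)

omit [FF.IsFunctionField (Res A) ↥(KM A M)] in
/-- The chart of the zeros of the norm of `j (p τ)` approximates into the chart at infinity. -/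
theorem exists_infSp_approx {k : ℕ} {G : FB M} (hG : IsOne h (upF M p G))
    (hk : normU p M h.hqM ^ k * G ∈ HM M ((p + 1) * k)) {γ : QBar} (hγ : γ ≠ 0) :
    ∃ K, ∃ Q ∈ infSp h 0 K, upF M p G - Q ∈ small A (iota2 M p h.hqM) γ := by
  obtain ⟨he, her⟩ := redL_normU p M h.hqM h.hA
  set eO : Oh h := ⟨_, upF_mem_loc2 M p h.hqM ((mem_loc1 M).mpr he)⟩ with heO
  -- `W = (normU / j ^ (p + 1)) ^ k` is in the chart at infinity and reduces to one
  set W : Oh h := (eO * jOi h ^ (p + 1)) ^ k with hW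
  have hW1 : IsOne h (W : FB (p * M)) := by
    refine ⟨W.2, ?_⟩
    show redh h W = 1
    rw [hW, map_pow, map_mul]
    have e1 : redh h eO = jPow A p (p + 1) := by
      rw [heO]
      refine (red2_upF M p h.hqM ⟨_, (mem_loc1 M).mpr he⟩).trans ?_
      rw [red1_eq, her]
      funext s
      fin_cases s <;> simp [jPow]
    rw [e1, jPow_mul_redh_jOi_pow, one_pow]
  have hJ : jF p M ≠ 0 := jF_ne_zero
  have hWmem : (W : FB (p * M)) ∈ infSp h 0 (k * (p + 1)) := by
    have h1 : upF M p (normU p M h.hqM) * (jF p M)⁻¹ ^ (p + 1) ∈ infSp h 0 (p + 1) := by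
      rw [mem_infSp, HD_zero, mul_left_comm, ← mul_pow, mul_inv_cancel₀ hJ, one_pow, mul_one]
      exact upF_mem_HN M p (normU_mem_HM h.hqM)
    have := (isChart_inf h).pow_mem h1 k
    rw [smul_zero] at this
    rw [hW, SubmonoidClass.coe_pow, Subring.coe_mul, SubmonoidClass.coe_pow, coe_jOi]
    exact this
  set B : FB (p * M) := upF M p (normU p M h.hqM ^ k * G) * (jF p M)⁻¹ ^ ((p + 1) * k) with hB
  have hBmem : B ∈ infSp h 0 ((p + 1) * k) := by
    rw [mem_infSp, HD_zero, hB, mul_left_comm, ← mul_pow, mul_inv_cancel₀ hJ, one_pow, mul_one]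
    exact upF_mem_HN M p hk
  have hBW : B = upF M p G * (W : FB (p * M)) := by
    rw [hB, hW, SubmonoidClass.coe_pow, Subring.coe_mul, SubmonoidClass.coe_pow, coe_jOi, mul_pow,
      ← pow_mul, map_mul, map_pow]
    show upF M p (normU p M h.hqM) ^ k * upF M p G * _ =
      upF M p G * (upF M p (normU p M h.hqM) ^ k * _)
    ring
  -- so `G` is `(G W)` times a truncated inverse of `W`, up to `γ`
  obtain ⟨ν, hν0, hνn, hν⟩ := exists_trunc_inv h hW1
  obtain ⟨N, hN⟩ := exists_pow_dvd h.hA hp.out hνn hγ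
  set S := ∑ i ∈ Finset.range N, (1 - (W : FB (p * M))) ^ i with hS
  have hSmem : S ∈ infSp h 0 (N * (k * (p + 1))) := by
    refine sum_mem fun i hi => infSp_mono h 0
      (Nat.mul_le_mul_right _ (Finset.mem_range.mp hi).le) ?_
    simpa using (isChart_inf h).pow_mem (sub_mem (one_mem_infSp h _) hWmem) i
  refine ⟨(p + 1) * k + N * (k * (p + 1)), B * S, ?_, ?_⟩
  · have := mul_mem_infSp h hBmem hSmem
    rwa [add_zero] at this
  · have e : upF M p G - B * S = upF M p G * -((W : FB (p * M)) * S - 1) := by rw [hBW]; ring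
    rw [e]
    exact mul_left_mem_small hG.1 (neg_mem (small_mono (pow_ne_zero _ hν0) (hN N le_rfl) (hν N)))

/-- If `(r + v) ^ p` splits as `r' + v'` then `r ^ p - r'` has no poles. -/
private theorem pow_sub_mem_Pk_zero {K L : ℕ} {r v r' v' : Fin 2 → LaurentSeries (Res A)}
    (hrP : r ∈ Pk A M p K) (hjv : jPow A p K * v ∈ Pk A M p K) (hr' : r' ∈ Bn A M p h.hqM L)
    (hv' : jPow A p L * v' ∈ Bn A M p h.hqM L) (e' : r' + v' = (r + v) ^ p) :
    r ^ p - r' ∈ Pk A M p 0 := by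
  set L' := p * K + L with hL'
  have hr'B := h.Bn_mono (show L ≤ L' by omega) hr'
  have hrpP : r ^ p ∈ Pk A M p L' := Pk_mono A M p (show p * K ≤ L' by omega) (pow_mem_Pk hrP p)
  have : CharP (LaurentSeries (Res A)) p :=
    charP_of_injective_algebraMap (algebraMap (Res A) (LaurentSeries (Res A))).injective p
  have eX : r ^ p - r' = v' - v ^ p := by
    have h2 : (r + v) ^ p = r ^ p + v ^ p := funext fun s =>
      add_pow_char (r s) (v s) p
    rw [h2] at e'
    rw [sub_eq_sub_iff_add_eq_add, ← e', add_comm r' v']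
  refine cancel_jPow (k := L') (b := L') (sub_mem hrpP (Bn_le_Pk M p h.hqM h.hA h.hM _ hr'B)) ?_
    le_rfl
  rw [eX, mul_sub]
  refine sub_mem ?_ ?_
  · obtain ⟨d, hd⟩ := Nat.exists_eq_add_of_le (show L ≤ L' by omega)
    rw [hd, add_comm L d, jPow_add, mul_assoc]
    exact mul_mem_Pk (jPow_mem_Pk d) (Bn_le_Pk M p h.hqM h.hA h.hM _ hv')
  · have h2 := mul_mem_Pk (jPow_mem_Pk (A := A) (M := M) (q := p) L) (pow_mem_Pk hjv p)
    rw [mul_pow, ← jPow_mul, ← mul_assoc, ← jPow_add, mul_comm K p, add_comm L] at h2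
    rwa [hL']

/-- **Frobenius on the classes supported on the meeting points is injective.** -/
theorem exists_mem_sup_of_pow {n : ℕ} {z : Fin 2 → LaurentSeries (Res A)} (hz : z ∈ RedO h n)
    (h0 : SplitsAt M (z 0)) (h1 : SplitsAt M (z 1)) {L : ℕ}
    (hpow : z ^ p ∈ RedF h L ⊔ RedI h L) : ∃ K, z ∈ RedF h K ⊔ RedI h K := by
  have := Arith.residueField_isAlgClosed A
  obtain ⟨a₀, ha₀⟩ := h0.exists_of_le
  obtain ⟨a₁, ha₁⟩ := h1.exists_of_le
  obtain ⟨n₀, hn₀⟩ := h.exists_glued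
  obtain ⟨n₁, hn₁⟩ := h.exists_descend
  -- `z = r + v`, componentwise in the two charts, but perhaps not glued at the meeting points
  set K := n + a₀ + a₁ + n₀ + n₁ with hK
  obtain ⟨r0, v0, e0, hr0, hv0⟩ := ha₀ K (by omega)
  obtain ⟨r1, v1, e1, hr1, hv1⟩ := ha₁ K (by omega)
  have hKp : K ≤ p * K := Nat.le_mul_of_pos_left K hp.out.pos
  set r : Fin 2 → LaurentSeries (Res A) := ![r0, r1] with hr
  set v : Fin 2 → LaurentSeries (Res A) := ![v0, v1] with hv
  have hzrv : z = r + v := by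
    funext s; fin_cases s
    · simpa [hr, hv] using e0
    · simpa [hr, hv] using e1
  have hrP : r ∈ Pk A M p K := (mem_Pk A M).mpr ⟨hr0, HkS_mono A M hKp hr1⟩
  have hjv : jPow A p K * v ∈ Pk A M p K := by
    refine (mem_Pk A M).mpr ⟨by simpa [jPow, hv] using hv0, ?_⟩
    obtain ⟨d, hd⟩ := Nat.exists_eq_add_of_le hKp
    have h2 := jq_pow_mul_mem_HkS d hv1
    rw [← mul_assoc, ← pow_add, add_comm d K, ← hd] at h2
    simpa [jPow, hv, pow_mul, pow_eq_qExpand_gen_one] using h2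
  -- the power splits in two ways, so `r ^ p - r'` has no poles: it is a pair of constants
  obtain ⟨r', hr', v', hv', e'⟩ := Submodule.mem_sup.mp hpow
  rw [RedF_eq] at hr'
  rw [mem_RedI] at hv'
  set L' := p * K + L
  have hr'B := h.Bn_mono (show L ≤ L' by omega) hr'
  have hX0 : r ^ p - r' ∈ Pk A M p 0 := pow_sub_mem_Pk_zero h hrP hjv hr' hv' (hzrv ▸ e')
  obtain ⟨hX00, hX01⟩ := (mem_Pk A M).mp hX0
  obtain ⟨β0, hβ0⟩ := exists_const_of_mem_HkS hX00 rfl
  obtain ⟨β1, hβ1⟩ := exists_const_of_mem_HkS hX01 (mul_zero p)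
  -- evaluate at the meeting points: the defect of gluing of `r` is a constant `δ`, `δ^p = β₁ - β₀`
  rw [← (hn₀ L' (by omega)).2, h.mem_glued] at hr'B
  obtain ⟨a', b', -, -, hab', hχ'⟩ := hr'B
  obtain ⟨a, ha, ha'⟩ := exists_serR hr0
  obtain ⟨b, hb, hb'⟩ := exists_serR (HkS_mono A M hKp hr1)
  have hsC : ∀ c : Res A, serR A M (algebraMap (Res A) (Rk A M) c) =
      algebraMap (Res A) (LaurentSeries (Res A)) c := fun c =>
    (KM A M).val.commutes c
  have hpa : a ^ p = a' + algebraMap (Res A) (Rk A M) β0 := serR_injective (by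
    rw [map_add, map_pow, hsC, ha, ← hβ0, hab', hr]
    simp)
  have hpb : b ^ p = b' + algebraMap (Res A) (Rk A M) β1 := serR_injective (by
    rw [map_add, map_pow, hsC, hb, ← hβ1, hab', hr]
    simp)
  obtain ⟨δ, hδ⟩ := IsAlgClosed.exists_pow_nat_eq (β1 - β0) hp.out.pos
  have hχ : ∀ χ : Pt h, ptEv h χ b - ptEv h (twist h χ) a = δ := fun χ => by
    refine frobenius_inj (Res A) p ?_
    rw [frobenius_def, frobenius_def, sub_pow_char, ← map_pow, ← map_pow, hδ, hpa, hpb, map_add,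
      map_add, AlgHom.commutes, AlgHom.commutes, hχ' χ, Pi.one_apply, one_mul]
    simp
  -- moving `δ` from `r` to `v` gives the splitting of `z`
  set Cδ := algebraMap (Res A) (LaurentSeries (Res A)) δ with hCδ
  have hglue : ![r0, r1 - Cδ] ∈ RedF h K := by
    rw [RedF_eq, ← (hn₀ K (by omega)).2, h.mem_glued]
    refine ⟨a, b - algebraMap (Res A) (Rk A M) δ, ha', sub_mem hb' ?_, ?_, fun χ => ?_⟩
    · show (algebraMap (Res A) (KM A M) δ) ∈ Hk A M (p * K)
      rw [Algebra.algebraMap_eq_smul_one]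
      exact Submodule.smul_mem _ _ (one_mem_polesSpace _ _)
    · funext s
      fin_cases s <;> simp [ha, hb, hsC, hCδ]
    · rw [map_sub, AlgHom.commutes, Pi.one_apply, one_mul, ← hχ χ]
      simp
  refine ⟨K, ?_⟩
  have hz' : z = ![r0, r1 - Cδ] + (v + ![0, Cδ]) := by
    rw [hzrv, hr, hv]
    funext s
    fin_cases s <;> simp
  rw [hz']
  refine Submodule.add_mem_sup hglue
    ((mem_RedI h).mpr (hn₁ K (by omega) (K + K) (by omega) _ ?_ ?_))
  · have hjK : jPow A p K ∈ Bn A M p h.hqM K := by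
      rw [← Bn_eq_LD_zero h]
      exact mem_redSub.mpr ⟨jO h ^ K, by
        rw [SubmonoidClass.coe_pow]; exact jF_pow_mem K, redh_jO_pow h K⟩
    have hzO := jPow_mul_mem_of_RedO h (k := K) (by
      obtain ⟨x, hx, hxe⟩ := mem_redSub.mp hz
      exact mem_redSub.mpr ⟨x, ovSp_mono h 0 (by omega) hx, hxe⟩ : z ∈ RedO h K)
    rw [RedF_eq] at hglue
    rw [eq_sub_of_add_eq' hz'.symm, mul_sub]
    exact sub_mem hzO (h.mul_mem_Bn hjK hglue)
  · rw [mul_add]
    refine add_mem hjv ((mem_Pk A M).mpr ⟨by simp, ?_⟩)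
    have h2 := Submodule.smul_mem (HkS A M (p * K)) δ
      ((mem_Pk A M).mp (jPow_mem_Pk (A := A) (M := M) (q := p) K)).2
    rw [Igusa.hsmul_eq] at h2
    simpa [hCδ, mul_comm] using h2

end Fermat.Agent.RT.AtP

end
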