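import Fermat.Agent.OrdinaryAtP.Coord
import Fermat.Agent.RT.AtP.Mult.Basic
import Fermat.Agent.RT.AtP.Mult.Split
import Fermat.Agent.RT.AtP.Mult.NormRed

/-!
# The size of the leading coordinate

A nonzero class with trivial gluing whose norms to level `M` are `p`-th powers has leading
coordinate of size `|p| ^ (1 / (p - 1))`.
-/

set_option autoImplicit false

noncomputable section

namespace Fermat.Agent.RT.AtP

open ModularCurve AlgebraicCurve
open Fermat.Agent.Semistable Fermat.Agent.OrdinaryAtP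
open Fermat.Agent.NewformLocal.Toric (normUp)
open Arith (QBar)

attribute [local instance 10000] SubalgebraClass.toAlgebra HahnSeries.powerSeriesAlgebra
attribute [-instance] RingHom.Finite.instFinite IsScalarTower.of_algHom

/-- The `p`-th power of `1 + a`: the last factor is `1` modulo `a`. -/
theorem exists_one_add_pow {S : Type*} [CommRing S] {p : ℕ} (hp : p.Prime) (a : S) :
    ∃ c : S, (1 + a) ^ p = 1 + a ^ p + (p : S) * a * c ∧
      ∀ {S' : Type} [CommRing S'] (φ : S →+* S'), φ a = 0 → φ c = 1 := by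
  refine ⟨∑ k ∈ Finset.Ioo 0 p, a ^ (k - 1) * 1 ^ (p - k - 1) * ((p.choose k / p : ℕ) : S),
    by rw [add_comm 1 a, add_pow_prime_eq hp, one_pow, mul_one, add_comm (a ^ p) 1],
    fun {S'} _ φ ha => ?_⟩
  rw [map_sum, Finset.sum_eq_single 1]
  · simp [Nat.choose_one_right, Nat.div_self hp.pos]
  · intro k hk hk1
    rw [Finset.mem_Ioo] at hk
    rw [map_mul, map_mul, map_pow, ha, zero_pow (by omega), zero_mul, zero_mul]
  · intro h
    exact absurd (Finset.mem_Ioo.mpr ⟨Nat.one_pos, hp.one_lt⟩) h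

section Valuation

variable {A : ValuationSubring QBar}

theorem dvdA_iff {γ a : QBar} (hγ : γ ≠ 0) : DvdA A γ a ↔ A.valuation a ≤ A.valuation γ := by
  show γ⁻¹ * a ∈ A ↔ _
  rw [← A.valuation_le_one_iff, map_mul, map_inv₀,
    inv_mul_le_iff₀ (zero_lt_iff.mpr ((Valuation.ne_zero_iff _).mpr hγ)), mul_one]

theorem inv_mul_mem_nonunits_iff {γ a : QBar} (hγ : γ ≠ 0) :
    γ⁻¹ * a ∈ A.nonunits ↔ A.valuation a < A.valuation γ := by
  rw [ValuationSubring.mem_nonunits_iff, map_mul, map_inv₀,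
    inv_mul_lt_iff₀ (zero_lt_iff.mpr ((Valuation.ne_zero_iff _).mpr hγ)), mul_one]

end Valuation

variable {A : ValuationSubring QBar} {p M : ℕ} [NeZero M] [hp : Fact p.Prime]
  [FF.IsFunctionField (Res A) (KM A M)] (h : Setup A M p)
include h

omit [FF.IsFunctionField (Res A) (KM A M)] in
theorem red_nonunit_smul {a : QBar} (ha : a ∈ A.nonunits) (z : Oh h) :
    redh h ⟨a • (z : FB (p * M)), smul_mem_loc2 (Arith.mem_of_mem_nonunits ha) z.2⟩ = 0 := by
  refine (red2_smul (ι := iota2 M p h.hqM) (Arith.mem_of_mem_nonunits ha) z).trans ?_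
  rw [(residue_eq_zero_iff _).mpr ha, zero_smul]

variable {g : ℕ} {η : Fin g → FB (p * M)}

omit [FF.IsFunctionField (Res A) ↥(KM A M)] in
/-- The two products attached to a presentation of a class with Kummer function `f`. -/
theorem mem_charts_kummer {D : Divisor QBar (FB (p * M))} {f x t : FB (p * M)} {k : ℕ}
    (hford : ∀ v, v.ord f = (p : ℤ) * D v) (hx : x ∈ HD M p D k) (ht : t ∈ infSp h D k) :
    f * x ^ p ∈ HD M p 0 (p * k) ∧ f * t ^ p ∈ infSp h 0 (p * k) := by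
  have hf : ∀ (W : Divisor QBar (FB (p * M)) → ℕ → Submodule QBar (FB (p * M))), IsChart W →
      ∀ z ∈ W D k, f * z ^ p ∈ W 0 (p * k) := fun W hW z hz => by
    have hfW : f ∈ W (-(p • D)) 0 := hW.ord fun v => by simp [hford]
    have := hW.mul hfW (hW.pow_mem hz p)
    rwa [neg_add_cancel, zero_add] at this
  exact ⟨hf _ (isChart_fin) x hx, hf _ (isChart_inf h) t ht⟩

/-- Both components of the leading term split. -/
theorem splitsAt_of_normPow [CharP (Res A) p] (hη : Completes h η)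
    {D : Divisor.degZero (K := QBar) (F := FB (p * M))} {y : JZero (p * M)} (hy : Pic0.mk D = y)
    (hN : NormPow h.hqM y) {f x t : FB (p * M)} {k : ℕ} (hf : IsOne h f)
    (hford : ∀ v, v.ord f = (p : ℤ) * (D : Divisor QBar (FB (p * M))) v) (hx : x ∈ HD M p D k)
    (hx1 : IsOne h x) (ht : t ∈ infSp h D k) (ht1 : IsOne h t) {ε : QBar} (hε : ε ≠ 0)
    (hεn : ε ∈ A.nonunits) (Z : Oh h) (e : t = x * (1 + ε • (Z : FB (p * M)))) :
    SplitsAt M (redh h Z 0) ∧ SplitsAt M (redh h Z 1) := by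
  obtain ⟨⟨g₀, hg₀, eg₀⟩, g₁, hg₁, eg₁⟩ := hN D f hy (hf.ne_zero h) hford
  obtain ⟨hF1, hF2⟩ := mem_charts_kummer h hford hx ht
  have hF11 : IsOne h (f * x ^ p) := hf.mul h (hx1.pow h p)
  have hF21 : IsOne h (f * t ^ p) := hf.mul h (ht1.pow h p)
  refine ⟨?_, ?_⟩
  · -- the first component: the norms of `f x^p` and `f t^p` are `p`-th powers, whose roots differ
    -- by `ε` times the norm of `Z`, in the sum of the two charts at level `M`
    have eG : (g₀ * normUp p M x) ^ p = normUp p M (f * x ^ p) := by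
      rw [mul_pow, ← eg₀, map_mul, map_pow]
    have eQ : (g₀ * normUp p M t) ^ p = normUp p M (f * t ^ p) := by
      rw [mul_pow, ← eg₀, map_mul, map_pow]
    have hG : upF M p (g₀ * normUp p M x) ∈ HD M p 0 ((p + 1) * (p * k)) := by
      rw [HD_zero] at hF1 ⊢
      exact upF_mem_HN M p (mem_HM_of_pow h.hqM hF1 (hF11.ne_zero h) eG)
    have hQ := mem_infSp_of_pow h.hqM h hF2 (hF21.ne_zero h) eQ
    have hG1 : IsOne h (upF M p (g₀ * normUp p M x)) :=
      isOne_of_pow h (by rw [← map_pow, eG]; exact IsOne.normUp h hF11)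
    obtain ⟨Y, hYm, eY, hYr⟩ := exists_normUp_one_add h hε hεn Z
    have hd : upF M p (g₀ * normUp p M t) - upF M p (g₀ * normUp p M x) =
        ε • (upF M p (g₀ * normUp p M x) * upF M p Y) := by
      rw [e, map_mul (normUp p M), eY, ← mul_smul_comm]
      simp only [map_mul, map_add, map_one, upF_smul]
      ring
    have hsm : upF M p (g₀ * normUp p M t) - upF M p (g₀ * normUp p M x) ∈
        small A (iota2 M p h.hqM) ε := by
      rw [hd, mem_small, smul_smul, inv_mul_cancel₀ hε, one_smul]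
      exact mul_mem hG1.1 hYm
    have hmem := red_diff_mem_sup h hη hG hQ hsm
    have hval : (⟨ε⁻¹ • (upF M p (g₀ * normUp p M t) - upF M p (g₀ * normUp p M x)), hsm⟩ : Oh h) =
        ⟨_, hG1.1⟩ * ⟨_, hYm⟩ := Subtype.ext (by
      show ε⁻¹ • (_ : FB (p * M)) = _
      rw [hd, smul_smul, inv_mul_cancel₀ hε, one_smul]; rfl)
    rw [hval, map_mul, hG1.2, one_mul, hYr] at hmem
    simpa using exists_splitsAt_of_mem h hmem
  · -- the second component: the same after `w`, the root at infinity being approximated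
    have eG : (g₁ * normUp p M (wEquiv p M h.hqM x)) ^ p =
        normUp p M (wEquiv p M h.hqM (f * x ^ p)) := by
      rw [mul_pow, ← eg₁, map_mul (wEquiv p M h.hqM), map_pow (wEquiv p M h.hqM),
        map_mul (normUp p M), map_pow (normUp p M)]
    have eQ : (g₁ * normUp p M (wEquiv p M h.hqM t)) ^ p =
        normUp p M (wEquiv p M h.hqM (f * t ^ p)) := by
      rw [mul_pow, ← eg₁, map_mul (wEquiv p M h.hqM), map_pow (wEquiv p M h.hqM),
        map_mul (normUp p M), map_pow (normUp p M)]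
    have hwF11 := IsOne.wEquiv h hF11
    have hwF21 := IsOne.wEquiv h hF21
    have hG : upF M p (g₁ * normUp p M (wEquiv p M h.hqM x)) ∈
        HD M p 0 ((p + 1) * (p * (p * k))) := by
      rw [HD_zero] at hF1 ⊢
      exact upF_mem_HN M p (mem_HM_of_pow h.hqM (wEquiv_mem_HN M p h.hqM hF1) (hwF11.ne_zero h) eG)
    have hG1 : IsOne h (upF M p (g₁ * normUp p M (wEquiv p M h.hqM x))) :=
      isOne_of_pow h (by rw [← map_pow, eG]; exact IsOne.normUp h hwF11)
    have hQ1 : IsOne h (upF M p (g₁ * normUp p M (wEquiv p M h.hqM t))) :=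
      isOne_of_pow h (by rw [← map_pow, eQ]; exact IsOne.normUp h hwF21)
    obtain ⟨K', Q, hQmem, hQd⟩ := exists_infSp_approx h hQ1
      (mem_HM_of_pow_wEquiv h.hqM h hF2 (hF21.ne_zero h) eQ) (mul_ne_zero hε hε)
    obtain ⟨hwZ, hwZr⟩ := exists_wEquiv_mem h Z
    obtain ⟨Y, hYm, eY, hYr⟩ := exists_normUp_one_add h hε hεn ⟨_, hwZ⟩
    set K := (p + 1) * (p * (p * k)) + K' with hK
    set GG := upF M p (g₁ * normUp p M (wEquiv p M h.hqM x)) with hGG
    set QQ := upF M p (g₁ * normUp p M (wEquiv p M h.hqM t)) with hQQ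
    have hd : QQ - GG = ε • (GG * upF M p Y) := by
      rw [hQQ, hGG, e, map_mul (wEquiv p M h.hqM), map_add (wEquiv p M h.hqM),
        map_one (wEquiv p M h.hqM), wEquiv_smul, map_mul (normUp p M), eY, ← mul_smul_comm]
      simp only [map_mul, map_add, map_one, upF_smul]
      ring
    have e' : ε⁻¹ • (Q - GG) = GG * upF M p Y - ε • ((ε * ε)⁻¹ • (QQ - Q)) := by
      rw [smul_smul, mul_inv, ← mul_assoc, mul_inv_cancel₀ hε, one_mul,
        show Q - GG = (QQ - GG) - (QQ - Q) by ring, smul_sub, hd, smul_smul, inv_mul_cancel₀ hε,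
        one_smul]
    have hsm : Q - GG ∈ small A (iota2 M p h.hqM) ε := by
      rw [mem_small, e']
      exact sub_mem (mul_mem hG1.1 hYm) (smul_mem_loc2 (Arith.mem_of_mem_nonunits hεn) hQd)
    have hmem := red_diff_mem_sup h hη (HD_mono 0 (show _ ≤ K from Nat.le_add_right _ K') hG)
      (infSp_mono h 0 (show _ ≤ K from Nat.le_add_left K' _) hQmem) hsm
    have hval : (⟨ε⁻¹ • (Q - GG), hsm⟩ : Oh h) = ⟨_, hG1.1⟩ * ⟨_, hYm⟩ -
        ⟨ε • ((⟨_, hQd⟩ : Oh h) : FB (p * M)),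
          smul_mem_loc2 (Arith.mem_of_mem_nonunits hεn) hQd⟩ := Subtype.ext e'
    rw [hval, map_sub, red_nonunit_smul h hεn, sub_zero, map_mul, hG1.2, one_mul, hYr, hwZr] at hmem
    simpa using exists_splitsAt_of_mem h hmem

omit h in
/-- A nonzero element of the maximal ideal divisible by both `γ₀` and `γ₁`. -/
private theorem exists_common_small (hpn : (p : QBar) ∈ A.nonunits) {γ₀ γ₁ : QBar} (hγ₀ : γ₀ ≠ 0)
    (hγ₀n : γ₀ ∈ A.nonunits) (hγ₁ : γ₁ ≠ 0) (hγ₁n : γ₁ ∈ A.nonunits) :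
    ∃ γ : QBar, γ ≠ 0 ∧ γ ∈ A.nonunits ∧ DvdA A γ₀ γ ∧ DvdA A γ₁ γ := by
  have hp0 : (p : QBar) ≠ 0 := by exact_mod_cast hp.out.ne_zero
  have hpA : (p : QBar) ∈ A := natCast_mem A p
  have hγ₁A := Arith.mem_of_mem_nonunits hγ₁n
  refine ⟨γ₀ * (γ₁ ^ p * (p : QBar)), mul_ne_zero hγ₀ (mul_ne_zero (pow_ne_zero _ hγ₁) hp0),
    Arith.nonunits_mul_left (Arith.mem_of_mem_nonunits hγ₀n)
      (Arith.nonunits_mul_left (pow_mem hγ₁A p) hpn), ?_, ?_⟩
  · show γ₀⁻¹ * (γ₀ * _) ∈ A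
    rw [inv_mul_cancel_left₀ hγ₀]
    exact mul_mem (pow_mem hγ₁A p) hpA
  · show γ₁⁻¹ * (γ₀ * (γ₁ ^ p * (p : QBar))) ∈ A
    obtain ⟨q, hq⟩ : ∃ q, p = q + 1 := ⟨p - 1, by have := hp.out.pos; omega⟩
    have e : γ₁⁻¹ * (γ₀ * (γ₁ ^ p * (p : QBar))) = γ₀ * (γ₁ ^ q * (p : QBar)) := by
      rw [show γ₁ ^ p = γ₁ ^ q * γ₁ by rw [hq, pow_succ]]
      field_simp
    rw [e]
    exact mul_mem (Arith.mem_of_mem_nonunits hγ₀n) (mul_mem (pow_mem hγ₁A q) hpA)

omit [FF.IsFunctionField (Res A) (KM A M)] in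
/-- For a nonunit `ε`, `u (1 + ε Z) ^ p - u` is `u (ε ^ p Z ^ p + p ε Z S)` with `S` reducing
to one. -/
private theorem exists_pow_sub {ε : QBar} (hεn : ε ∈ A.nonunits) (Z : Oh h) (u : FB (p * M)) :
    ∃ S : Oh h, redh h S = 1 ∧ u * (1 + ε • (Z : FB (p * M))) ^ p - u =
      u * ((ε ^ p) • ((Z : FB (p * M)) ^ p) +
        ((p : QBar) * ε) • ((Z : FB (p * M)) * (S : FB (p * M)))) := by
  set a : Oh h := ⟨ε • (Z : FB (p * M)), smul_mem_loc2 (Arith.mem_of_mem_nonunits hεn) Z.2⟩ with ha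
  obtain ⟨S, hS, hSr⟩ := exists_one_add_pow hp.out a
  refine ⟨S, hSr (redh h) (red_nonunit_smul h hεn Z), ?_⟩
  have h1 : (1 + ε • (Z : FB (p * M))) ^ p =
      1 + (ε • (Z : FB (p * M))) ^ p + (p : FB (p * M)) * (ε • (Z : FB (p * M))) * S := by
    simpa [ha] using congrArg Subtype.val hS
  rw [h1, smul_pow]
  simp only [Algebra.smul_def, map_mul, map_natCast]
  ring

omit [FF.IsFunctionField (Res A) ↥(KM A M)] in
/-- If `u` is in the finite chart and reduces to one, `v` is in the chart at infinity and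
`(v - u) / δ = u W` with `W` integral, then the reduction of `W` is in the sum of the reductions
of the two charts. -/
private theorem red_mem_sup_of_sub_eq (hη : Completes h η) {K : ℕ} {u v : FB (p * M)}
    (hu : u ∈ HD M p 0 K) (hv : v ∈ infSp h 0 K) (hu1 : IsOne h u) {δ : QBar} (W : Oh h)
    (e : δ⁻¹ • (v - u) = u * (W : FB (p * M))) : redh h W ∈ RedF h K ⊔ RedI h K := by
  have hsm : v - u ∈ small A (iota2 M p h.hqM) δ := by
    rw [mem_small, e]
    exact mul_mem hu1.1 W.2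
  have hmem := red_diff_mem_sup h hη hu hv hsm
  rwa [show (⟨δ⁻¹ • (v - u), hsm⟩ : Oh h) = ⟨_, hu1.1⟩ * W from Subtype.ext e, map_mul, hu1.2,
    one_mul] at hmem

omit [FF.IsFunctionField (Res A) ↥(KM A M)] in
/-- The leading term of `t / x`: if `t` is `x (1 + ∑ cᵢ ηᵢ)` up to `γ`, every `cᵢ` is at most
`ε` and `γ` is below `ε`, then `t = x (1 + ε Z)` with `Z` reducing like `∑ (cᵢ / ε) ηᵢ`. -/
private theorem exists_leading_term (hη : Completes h η) {x t : FB (p * M)} (hx1 : IsOne h x)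
    {γ : QBar} (hγ : γ ≠ 0) {c : Fin g → QBar}
    (hd : t - x * linUnit η c ∈ small A (iota2 M p h.hqM) γ) {ε : QBar} (hε : ε ≠ 0)
    (hu : ∀ i, ε⁻¹ * c i ∈ A) (hγε : ε⁻¹ * γ ∈ A.nonunits) :
    ∃ (hZ₀ : ∑ i, (ε⁻¹ * c i) • η i ∈ Oh h) (Z : Oh h),
      t = x * (1 + ε • (Z : FB (p * M))) ∧ redh h Z = redh h ⟨_, hZ₀⟩ := by
  have hx0 := hx1.ne_zero h
  set Z₀ : FB (p * M) := ∑ i, (ε⁻¹ * c i) • η i with hZ₀
  have hZ₀m : Z₀ ∈ Oh h := sum_mem fun i _ => smul_mem_loc2 (hu i) (hη.mem i).1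
  set E₀ : FB (p * M) := γ⁻¹ • (x⁻¹ * (t - x * linUnit η c)) with hE₀
  have hE₀m : E₀ ∈ Oh h := mul_left_mem_small (hx1.inv h).1 hd
  refine ⟨hZ₀m, ⟨Z₀, hZ₀m⟩ + ⟨(ε⁻¹ * γ) • ((⟨E₀, hE₀m⟩ : Oh h) : FB (p * M)),
    smul_mem_loc2 (Arith.mem_of_mem_nonunits hγε) hE₀m⟩, ?_, ?_⟩
  · have hsum : ε • Z₀ = ∑ i, c i • η i := by
      rw [hZ₀, Finset.smul_sum]
      exact Finset.sum_congr rfl fun i _ => by rw [smul_smul, mul_inv_cancel_left₀ hε]
    show t = x * (1 + ε • (Z₀ + (ε⁻¹ * γ) • E₀))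
    rw [smul_add, smul_smul, mul_inv_cancel_left₀ hε, hsum, hE₀, smul_smul, mul_inv_cancel₀ hγ,
      one_smul, linUnit]
    field_simp
    ring
  · rw [map_add, red_nonunit_smul h hγε, add_zero]

/-- **The leading coordinate of a nonzero class.** -/
theorem exists_lead [CharP (Res A) p] (hη : Completes h η) {y : JZero (p * M)} (hy : ConnClass h y)
    (hN : NormPow h.hqM y) (hy0 : y ≠ 0) {γ₀ : QBar} (hγ₀ : γ₀ ≠ 0) (hγ₀n : γ₀ ∈ A.nonunits) :
    ∃ (γ : QBar) (c : Fin g → QBar) (i₀ : Fin g), γ ≠ 0 ∧ γ ∈ A.nonunits ∧ DvdA A γ₀ γ ∧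
      RepClass h η y γ c ∧ A.valuation γ < A.valuation (c i₀) ∧
      (∀ i, A.valuation (c i) ≤ A.valuation (c i₀)) ∧
      A.valuation (c i₀) ^ (p - 1) = A.valuation (p : QBar) := by
  classical
  have hp0 : (p : QBar) ≠ 0 := by exact_mod_cast hp.out.ne_zero
  -- a precision `γ` at which some coordinate is not negligible; `ε` is the largest coordinate
  obtain ⟨γ₁, hγ₁, hγ₁n, hsep⟩ := exists_separated h hη hy hy0
  obtain ⟨L₀, -, hrep⟩ := exists_repClass h hη hy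
  obtain ⟨γ, hγ, hγn, hγ₀γ, hγ₁γ⟩ := exists_common_small h.hA hγ₀ hγ₀n hγ₁ hγ₁n
  obtain ⟨c, hc, -⟩ := hrep γ hγ
  obtain ⟨i₁, hi₁⟩ := hsep γ c hγ hγ₁γ hc
  obtain ⟨i₀, -, hmax⟩ := Finset.exists_max_image Finset.univ (fun i => A.valuation (c i))
    ⟨i₁, Finset.mem_univ i₁⟩
  set ε := c i₀ with hεdef
  rw [dvdA_iff hγ₁, not_le] at hi₁
  have hε1 : A.valuation γ₁ < A.valuation ε := hi₁.trans_le (hmax i₁ (Finset.mem_univ i₁))
  have hε : ε ≠ 0 := fun h0 => by
    rw [h0, map_zero] at hε1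
    exact not_lt_zero hε1
  have hεγ : A.valuation γ < A.valuation ε := ((dvdA_iff hγ₁).mp hγ₁γ).trans_lt hε1
  refine ⟨γ, c, i₀, hγ, hγn, hγ₀γ, hc, hεγ, fun i => hmax i (Finset.mem_univ i), ?_⟩
  obtain ⟨D, hyD, ⟨f, hf, hford⟩, k, x, t, hx, hx1, ht, ht1, hcn, hd⟩ := hc
  have hεn : ε ∈ A.nonunits := hcn i₀
  have hu : ∀ i, ε⁻¹ * c i ∈ A := fun i => (dvdA_iff hε).mpr (hmax i (Finset.mem_univ i))
  -- the leading term `t = x (1 + ε Z)`: the reduction of `Z` is outside the sum of the two charts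
  obtain ⟨hZ₀m, Z, htx, hZr⟩ := exists_leading_term h hη hx1 hγ hd hε hu
    ((inv_mul_mem_nonunits_iff hε).mpr hεγ)
  choose m hm using fun i => (hη.mem i).2.2
  set n := Finset.univ.sup m with hn
  have hzO : redh h Z ∈ RedO h n := by
    rw [hZr]
    exact mem_redSub.mpr ⟨⟨_, hZ₀m⟩, Submodule.sum_mem _ fun i _ => Submodule.smul_mem _ _
      (ovSp_mono h 0 (Finset.le_sup (Finset.mem_univ i)) (hm i)), rfl⟩
  have hnot : ∀ K, redh h Z ∉ RedF h K ⊔ RedI h K := fun K hK => by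
    have := coeff_mem_nonunits h hη (c := fun i => ε⁻¹ * c i) hZ₀m (K := K) (hZr ▸ hK) i₀
    rw [← hεdef, inv_mul_cancel₀ hε] at this
    exact absurd ((ValuationSubring.mem_nonunits_iff A).mp this)
      (by rw [map_one]; exact lt_irrefl _)
  -- the `p`-th power is `f t^p - f x^p = f x^p (ε^p Z^p + p ε Z S)`, a difference of the charts:
  -- dividing by `δ` gives a combination of `Z^p` and `Z` reducing into the sum of the charts
  obtain ⟨hF1, hF2⟩ := mem_charts_kummer h hford hx ht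
  have hF11 : IsOne h (f * x ^ p) := hf.mul h (hx1.pow h p)
  obtain ⟨S, hS1, hdiff⟩ := exists_pow_sub h hεn Z (f * x ^ p)
  rw [mul_assoc f, ← mul_pow, ← htx] at hdiff
  have key : ∀ {δ a b : QBar}, δ ≠ 0 → δ⁻¹ * ε ^ p = a → δ⁻¹ * ((p : QBar) * ε) = b →
      ∀ (ha : a ∈ A) (hb : b ∈ A), IsLocalRing.residue A ⟨a, ha⟩ • redh h Z ^ p +
        IsLocalRing.residue A ⟨b, hb⟩ • redh h Z ∈ RedF h (p * k) ⊔ RedI h (p * k) := by
    intro δ a b hδ ea eb ha hb
    have hmem := red_mem_sup_of_sub_eq h hη hF1 hF2 hF11 (δ := δ)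
      (⟨a • ((Z ^ p : Oh h) : FB (p * M)), smul_mem_loc2 ha (Z ^ p).2⟩ +
        ⟨b • ((Z * S : Oh h) : FB (p * M)), smul_mem_loc2 hb (Z * S).2⟩) (by
      rw [hdiff, ← mul_smul_comm, smul_add, smul_smul, smul_smul, ea, eb]
      simp)
    rw [map_add] at hmem
    rw [show redh h ⟨a • ((Z ^ p : Oh h) : FB (p * M)), smul_mem_loc2 ha (Z ^ p).2⟩ = _ from
        red2_smul (ι := iota2 M p h.hqM) ha (Z ^ p),
      show redh h ⟨b • ((Z * S : Oh h) : FB (p * M)), smul_mem_loc2 hb (Z * S).2⟩ = _ from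
        red2_smul (ι := iota2 M p h.hqM) hb (Z * S), map_pow, map_mul] at hmem
    change _ • redh h Z ^ p + _ • (redh h Z * redh h S) ∈ _ at hmem
    rwa [hS1, mul_one] at hmem
  have hpε : (p : QBar) * ε ≠ 0 := mul_ne_zero hp0 hε
  have hpn1 : ε ^ p = ε ^ (p - 1) * ε := by rw [← pow_succ, Nat.sub_add_cancel hp.out.one_le]
  rcases lt_trichotomy (A.valuation ε ^ (p - 1)) (A.valuation (p : QBar)) with hlt | heq | hgt
  · -- if `ε` is too small, dividing by `p ε` leaves `Z` alone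
    exfalso
    have ha' : ((p : QBar) * ε)⁻¹ * ε ^ p = (p : QBar)⁻¹ * ε ^ (p - 1) := by
      rw [hpn1, mul_inv]; field_simp
    have hn' : (p : QBar)⁻¹ * ε ^ (p - 1) ∈ A.nonunits :=
      (inv_mul_mem_nonunits_iff hp0).mpr (by rw [map_pow]; exact hlt)
    have h2 := key hpε ha' (inv_mul_cancel₀ hpε) (Arith.mem_of_mem_nonunits hn') (one_mem A)
    rw [(residue_eq_zero_iff _).mpr hn', zero_smul, zero_add,
      show IsLocalRing.residue A ⟨1, one_mem A⟩ = 1 from map_one _, one_smul] at h2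
    exact hnot _ h2
  · exact heq
  · -- if too large, dividing by `ε^p` leaves `Z^p`; the norms split `Z`, so `Z` is in the sum
    exfalso
    have hεp : ε ^ p ≠ 0 := pow_ne_zero _ hε
    have hb' : (ε ^ p)⁻¹ * ((p : QBar) * ε) = (ε ^ (p - 1))⁻¹ * (p : QBar) := by
      rw [hpn1, mul_inv]; field_simp
    have hn' : (ε ^ (p - 1))⁻¹ * (p : QBar) ∈ A.nonunits :=
      (inv_mul_mem_nonunits_iff (pow_ne_zero _ hε)).mpr (by rw [map_pow]; exact hgt)
    have h2 := key hεp (inv_mul_cancel₀ hεp) hb' (one_mem A) (Arith.mem_of_mem_nonunits hn')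
    rw [(residue_eq_zero_iff _).mpr hn', zero_smul, add_zero,
      show IsLocalRing.residue A ⟨1, one_mem A⟩ = 1 from map_one _, one_smul] at h2
    obtain ⟨h0, h1⟩ := splitsAt_of_normPow h hη hyD hN hf hford hx hx1 ht ht1 hε hεn Z htx
    obtain ⟨K, hK⟩ := exists_mem_sup_of_pow h hzO h0 h1 h2
    exact hnot K hK

end Fermat.Agent.RT.AtP

end
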