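import Fermat.Agent.RT.AtP.Mult.Leading
import Fermat.Agent.RT.MazurP.Jump
import Fermat.Agent.OrdinaryAtP.Functions

/-!
# Inertia acts on classes with trivial gluing and norms `p`-th powers through the cyclotomic
character

The leading coordinate of such a nonzero class has the critical size `|p| ^ (1 / (p - 1))`, on
which inertia acts by the cyclotomic character (`residue_galois_div`). So the coordinates of
`τ • y - a • y` are below the critical size, and the class vanishes (`inertia_smul_eq`).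
-/

set_option autoImplicit false

noncomputable section

namespace Fermat.Agent.RT.AtP

open ModularCurve AlgebraicCurve
open Fermat.Agent.Semistable Fermat.Agent.OrdinaryAtP
open Arith (QBar GQ)

/-- `(1 + a') (1 + a) ^ m` to first order. -/
theorem exists_first_order {S : Type*} [CommRing S] (e a b : S) (m : ℕ) :
    ∃ c : S, (1 + e * b) * (1 + e * a) ^ m = 1 + e * (b + (m : S) * a) + e * (e * c) := by
  induction m with
  | zero => exact ⟨0, by simp⟩
  | succ m ih =>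
    obtain ⟨c, hc⟩ := ih
    refine ⟨c + (b + (m : S) * a) * a + e * c * a, ?_⟩
    rw [pow_succ, ← mul_assoc, hc]
    push_cast
    ring

/-- A map fixing the residue field scales a size `|p| ^ (1 / (p - 1))` by the cyclotomic
character. -/
theorem residue_galois_div {A : ValuationSubring QBar} {p : ℕ} [hp : Fact p.Prime]
    (hA : A.LiesOverPrime p) {τ : GQ} (hτ : τ ∈ A.inertiaSubgroupIn ℚ) {a : ℕ}
    (ha : ∀ ζ : QBar, ζ ^ p = 1 → τ ζ = ζ ^ a) {ε : QBar}
    (hε : A.valuation ε ^ (p - 1) = A.valuation (p : QBar)) :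
    ∃ h : ε⁻¹ * τ ε ∈ A, IsLocalRing.residue A ⟨_, h⟩ = (a : Res A) := by
  obtain ⟨ζ, hζ⟩ := HasEnoughRootsOfUnity.exists_primitiveRoot QBar p
  obtain ⟨-, hval, hdiv⟩ := MazurP.zeta_sub_one hA hp.out hζ
  obtain ⟨hmA, hmr⟩ := hdiv a
  have hres : IsLocalRing.residue A ⟨_, hmA⟩ = (a : Res A) := by
    rw [EC.Reduction.res_of_mem hmA] at hmr
    exact hmr
  -- write `ε = w λ` with `λ = ζ - 1` and `w` a unit, whose residue inertia fixes
  set lam := ζ - 1 with hlam
  have hlam0 : lam ≠ 0 := sub_ne_zero.mpr (hζ.ne_one hp.out.one_lt)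
  have hε0 : ε ≠ 0 := fun h0 => by
    have hp0 : A.valuation (p : QBar) ≠ 0 :=
      (Valuation.ne_zero_iff _).mpr (by exact_mod_cast hp.out.ne_zero)
    rw [h0, map_zero, zero_pow (by have := hp.out.two_le; omega)] at hε
    exact hp0 hε.symm
  have hw : A.valuation (ε * lam⁻¹) = 1 := by
    have h1 : A.valuation ε = A.valuation lam :=
      (pow_left_inj₀ zero_le zero_le (by have := hp.out.two_le; omega)).mp (hε.trans hval.symm)
    rw [map_mul, map_inv₀, h1, mul_inv_cancel₀ ((Valuation.ne_zero_iff _).mpr hlam0)]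
  set w := ε * lam⁻¹ with hwdef
  have hwA : w ∈ A := (A.valuation_le_one_iff _).mp hw.le
  have hwi : w⁻¹ ∈ A := (A.valuation_le_one_iff _).mp (by rw [map_inv₀, hw, inv_one])
  have hτw := (resLift_of_inertia hτ).residue_eq w hwA
  have hτlam : τ lam = lam * ((ζ ^ a - 1) / lam) := by
    rw [hlam, map_sub, map_one, ha ζ hζ.pow_eq_one, mul_div_cancel₀ _ hlam0]
  have e : ε⁻¹ * τ ε = w⁻¹ * τ w * ((ζ ^ a - 1) / lam) := by
    have hεw : ε = w * lam := by rw [hwdef, inv_mul_cancel_right₀ hlam0]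
    have hw0 : w ≠ 0 := mul_ne_zero hε0 (inv_ne_zero hlam0)
    rw [hεw, map_mul, hτlam, mul_inv]
    field_simp
  have hmem : w⁻¹ * τ w ∈ A := mul_mem hwi ((resLift_of_inertia hτ).mem w hwA)
  refine ⟨e ▸ mul_mem hmem hmA, ?_⟩
  have hsplit : (⟨_, (e ▸ mul_mem hmem hmA : ε⁻¹ * τ ε ∈ A)⟩ : A) =
      (⟨w⁻¹, hwi⟩ * ⟨τ w, (resLift_of_inertia hτ).mem w hwA⟩) * ⟨_, hmA⟩ := Subtype.ext e
  rw [hsplit, map_mul, map_mul, hτw, RingHom.id_apply, ← map_mul (IsLocalRing.residue A), hres,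
    show (⟨w⁻¹, hwi⟩ : A) * ⟨w, hwA⟩ = 1 from
      Subtype.ext (inv_mul_cancel₀ (fun h0 => by rw [h0, map_zero] at hw; exact zero_ne_one hw)),
    map_one, one_mul]

/-- `ε⁻¹ (τ c + m c)` is a nonunit if `c` is bounded by `ε`, the residue of `τ ε / ε` is `a` and
`p` divides `a + m`. -/
private theorem galois_add_mem_nonunits {A : ValuationSubring QBar} {p : ℕ} [CharP (Res A) p]
    {τ : GQ} (hτ : τ ∈ A.inertiaSubgroupIn ℚ) {ε c : QBar} (hε : ε ≠ 0) (hc : ε⁻¹ * c ∈ A)
    {hρA : ε⁻¹ * τ ε ∈ A} {a m : ℕ} (hρ : IsLocalRing.residue A ⟨_, hρA⟩ = (a : Res A))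
    (ham : p ∣ a + m) : ε⁻¹ * (τ c + (m : QBar) * c) ∈ A.nonunits := by
  have hτu := (resLift_of_inertia hτ).mem _ hc
  have e : ε⁻¹ * (τ c + (m : QBar) * c) =
      τ (ε⁻¹ * c) * (ε⁻¹ * τ ε) + (m : QBar) * (ε⁻¹ * c) := by
    have hτε : τ ε ≠ 0 := (map_ne_zero τ).mpr hε
    rw [map_mul, map_inv₀]
    field_simp
  have hmA : (m : QBar) ∈ A := natCast_mem A m
  rw [e]
  refine (residue_eq_zero_iff (add_mem (mul_mem hτu hρA) (mul_mem hmA hc))).mp ?_
  show IsLocalRing.residue A (⟨_, hτu⟩ * ⟨_, hρA⟩ + ⟨_, hmA⟩ * ⟨_, hc⟩) = 0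
  rw [map_add (IsLocalRing.residue A), map_mul (IsLocalRing.residue A),
    map_mul (IsLocalRing.residue A), (resLift_of_inertia hτ).residue_eq _ hc, RingHom.id_apply,
    hρ, show IsLocalRing.residue A ⟨(m : QBar), hmA⟩ = (m : Res A) from
      map_natCast (IsLocalRing.residue A) m,
    mul_comm _ (a : Res A), ← add_mul, ← Nat.cast_add,
    (CharP.cast_eq_zero_iff (Res A) p _).mpr ham, zero_mul]

variable {A : ValuationSubring QBar} {p M : ℕ} [NeZero M] [Fact p.Prime] [CharP (Res A) p]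
  [FF.IsFunctionField (Res A) (KM A M)] (h : Setup A M p)
include h

omit [CharP (Res A) p] [FF.IsFunctionField (Res A) (KM A M)] in
/-- If `w` and `w'` are `1 + ∑ cᵢ ηᵢ` and `1 + ∑ c'ᵢ ηᵢ` to order `γ`, then `w' w ^ m` is `1` to
any order dividing `γ`, `ε ^ 2` and every `c'ᵢ + m cᵢ`, where `ε` bounds `γ`, `c` and `c'`. -/
private theorem mul_pow_sub_one_mem_small {g : ℕ} {η : Fin g → FB (p * M)} (hη : Completes h η)
    {γ ε δ : QBar} (hγ : γ ≠ 0) (hε : ε ≠ 0) (hεA : ε ∈ A) (hεγ : DvdA A ε γ) (hδγ : DvdA A δ γ)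
    (hδεε : DvdA A δ (ε * ε)) {c c' : Fin g → QBar} (hc : ∀ i, DvdA A ε (c i))
    (hc' : ∀ i, DvdA A ε (c' i)) {m : ℕ} (hδc : ∀ i, DvdA A δ (c' i + (m : QBar) * c i))
    {w w' : FB (p * M)} (hw : w - linUnit η c ∈ small A (iota2 M p h.hqM) γ)
    (hw' : w' - linUnit η c' ∈ small A (iota2 M p h.hqM) γ) :
    w' * w ^ m - 1 ∈ small A (iota2 M p h.hqM) δ := by
  have hεsum : ∀ v : Fin g → QBar, (∀ i, DvdA A ε (v i)) → ∀ w : FB (p * M),
      w - linUnit η v ∈ small A (iota2 M p h.hqM) γ →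
      w - 1 ∈ small A (iota2 M p h.hqM) ε := fun v hv w hw => by
    have e : w - 1 = (w - linUnit η v) + ∑ i, v i • η i := by rw [linUnit]; ring
    rw [e]
    exact add_mem (small_mono hγ hεγ hw)
      (sum_mem fun i _ => smul_mem_small (hv i) (hη.mem i).1)
  -- with `w = 1 + ε A₁` and `w' = 1 + ε B₁`, expand to first order
  set A₁ : Oh h := ⟨ε⁻¹ • (w - 1), hεsum c hc _ hw⟩ with hA₁
  set B₁ : Oh h := ⟨ε⁻¹ • (w' - 1), hεsum c' hc' _ hw'⟩ with hB₁
  obtain ⟨C, hC⟩ := exists_first_order (⟨_, algebraMap_mem_loc2 _ hεA⟩ : Oh h) A₁ B₁ m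
  have hC' : w' * w ^ m = 1 + ((w' - 1) + (m : FB (p * M)) * (w - 1)) +
      (ε * ε) • (C : FB (p * M)) := by
    have h2 := congrArg Subtype.val hC
    have hback : ∀ w : FB (p * M), algebraMap QBar (FB (p * M)) ε * (ε⁻¹ • (w - 1)) = w - 1 :=
      fun w => by rw [← Algebra.smul_def, smul_smul, mul_inv_cancel₀ hε, one_smul]
    simp only [hA₁, hB₁, Subring.coe_mul, Subring.coe_add, Subring.coe_one,
      SubmonoidClass.coe_pow, hback] at h2
    rw [add_sub_cancel, add_sub_cancel] at h2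
    rw [h2, mul_add, hback]
    have hα : algebraMap QBar (FB (p * M)) ε ≠ 0 := (map_ne_zero _).mpr hε
    simp only [Algebra.smul_def, map_mul, map_inv₀]
    push_cast
    field_simp
  have e : w' * w ^ m - 1 =
      (w' - linUnit η c') + (m : FB (p * M)) * (w - linUnit η c) +
        (∑ i, (c' i + (m : QBar) * c i) • η i) + (ε * ε) • (C : FB (p * M)) := by
    have esum : ∑ i, (c' i + (m : QBar) * c i) • η i =
        (∑ i, c' i • η i) + (m : FB (p * M)) * ∑ i, c i • η i := by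
      rw [Finset.mul_sum, ← Finset.sum_add_distrib]
      exact Finset.sum_congr rfl fun i _ => by
        rw [add_smul, mul_smul, Nat.cast_smul_eq_nsmul, nsmul_eq_mul]
    rw [hC', esum]
    simp only [linUnit]
    ring
  rw [e]
  exact add_mem (add_mem (add_mem (small_mono hγ hδγ hw')
    (mul_left_mem_small (natCast_mem (Oh h) m) (small_mono hγ hδγ hw)))
    (sum_mem fun i _ => smul_mem_small (hδc i) (hη.mem i).1)) (smul_mem_small hδεε C.2)

omit [NeZero M] [CharP (Res A) p] [FF.IsFunctionField (Res A) (KM A M)] in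
/-- A nonunit size `δ` below `ε` bounding `γ`, `ε ^ 2` and finitely many sizes below `ε`. -/
private theorem exists_size_below {g : ℕ} {γ ε : QBar} (hε : ε ≠ 0) (hεn : ε ∈ A.nonunits)
    (hγε : A.valuation γ < A.valuation ε) {v : Fin g → QBar} (hv : ∀ i, ε⁻¹ * v i ∈ A.nonunits) :
    ∃ δ : QBar, δ ≠ 0 ∧ δ ∈ A.nonunits ∧ A.valuation δ < A.valuation ε ∧ DvdA A δ γ ∧
      DvdA A δ (ε * ε) ∧ ∀ i, DvdA A δ (v i) := by
  classical
  obtain ⟨ν, hν0, hνn, hν⟩ := exists_dvd_all h.hA Fact.out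
    (insert (ε⁻¹ * γ) (insert ε (Finset.univ.image fun i => ε⁻¹ * v i)))
    (by
      intro b hb
      simp only [Finset.mem_insert, Finset.mem_image, Finset.mem_univ, true_and] at hb
      rcases hb with rfl | rfl | ⟨i, rfl⟩
      exacts [(inv_mul_mem_nonunits_iff hε).mpr hγε, hεn, hv i])
  have hdvd : ∀ b, DvdA A ν (ε⁻¹ * b) → DvdA A (ε * ν) b := fun b hb => by
    show (ε * ν)⁻¹ * b ∈ A
    rw [mul_inv, mul_comm ε⁻¹, mul_assoc]
    exact hb
  refine ⟨ε * ν, mul_ne_zero hε hν0, Arith.nonunits_mul_left (Arith.mem_of_mem_nonunits hεn) hνn,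
    ?_, hdvd γ (hν _ (by simp)), hdvd _ (by rw [inv_mul_cancel_left₀ hε]; exact hν ε (by simp)),
    fun i => hdvd _ (hν _ (Finset.mem_insert_of_mem (Finset.mem_insert_of_mem
      (Finset.mem_image_of_mem _ (Finset.mem_univ i)))))⟩
  rw [map_mul]
  exact mul_lt_of_lt_one_right (zero_lt_iff.mpr ((Valuation.ne_zero_iff _).mpr hε))
    ((ValuationSubring.mem_nonunits_iff A).mp hνn)

omit [CharP (Res A) p] [FF.IsFunctionField (Res A) ↥(KM A M)] in
/-- If `y` and `y'` have coordinates `c` and `c'` up to `γ`, bounded by `ε`, then `y' + m • y` has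
zero coordinates up to any order dividing `γ`, `ε ^ 2` and every `c'ᵢ + m cᵢ`. -/
private theorem repClass_add_nsmul_zero {g : ℕ} {η : Fin g → FB (p * M)} (hη : Completes h η)
    {γ ε δ : QBar} (hγ : γ ≠ 0) (hε : ε ≠ 0) (hεA : ε ∈ A) (hεγ : DvdA A ε γ) (hδγ : DvdA A δ γ)
    (hδεε : DvdA A δ (ε * ε)) {c c' : Fin g → QBar} (hc : ∀ i, DvdA A ε (c i))
    (hc' : ∀ i, DvdA A ε (c' i)) {m : ℕ} (hδc : ∀ i, DvdA A δ (c' i + (m : QBar) * c i))
    {y y' : JZero (p * M)} (hrep : RepClass h η y γ c) (hrep' : RepClass h η y' γ c') :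
    RepClass h η (y' + m • y) δ 0 := by
  obtain ⟨D, hyD, hDc, k, x, t, hx, hx1, ht, ht1, -, hd⟩ := hrep
  obtain ⟨D', hyD', hDc', k', x', t', hx', hx'1, ht', ht'1, -, hd'⟩ := hrep'
  -- the ratios `t / x` of the two presentations combine to `1` up to `δ`
  have hO : ∀ (u : FB (p * M)) (v : Fin g → QBar), IsOne h u → ∀ s : FB (p * M),
      s - u * linUnit η v ∈ small A (iota2 M p h.hqM) γ →
      u⁻¹ * s - linUnit η v ∈ small A (iota2 M p h.hqM) γ := fun u v hu1 s hs => by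
    have := mul_left_mem_small (hu1.inv h).1 hs
    rwa [mul_sub, inv_mul_cancel_left₀ (hu1.ne_zero h)] at this
  have hwL := hO x c hx1 t hd
  have hwL' := hO x' _ hx'1 t' hd'
  have hfirst : x'⁻¹ * t' * (x⁻¹ * t) ^ m - 1 ∈ small A (iota2 M p h.hqM) δ :=
    mul_pow_sub_one_mem_small h hη hγ hε hεA hεγ hδγ hδεε hc hc' hδc
      hwL hwL'
  -- so the sum is presented with zero coordinates up to `δ`
  have hDn : ∀ n : ℕ, Conn h (n • (D : Divisor QBar (FB (p * M)))) := by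
    intro n
    induction n with
    | zero => rw [zero_smul]; exact conn_zero h
    | succ n ih => rw [succ_nsmul]; exact Conn.add h ih hDc
  refine ⟨D' + m • D, ?_, ?_, k' + m * k, x' * x ^ m, t' * t ^ m, ?_, hx'1.mul h (hx1.pow h m),
    ?_, ht'1.mul h (ht1.pow h m), fun _ => zero_mem_nonunits A, ?_⟩
  · rw [Pic0.mk_add, hyD']
    refine congrArg (y' + ·) ?_
    exact (map_nsmul (QuotientAddGroup.mk' _) m D).trans (congrArg (m • ·) hyD)
  · rw [AddSubgroup.coe_add, AddSubgroupClass.coe_nsmul]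
    exact hDc'.add h (hDn m)
  · rw [AddSubgroup.coe_add, AddSubgroupClass.coe_nsmul]
    exact mul_mem_HD hx' (isChart_fin.pow_mem hx m)
  · rw [AddSubgroup.coe_add, AddSubgroupClass.coe_nsmul]
    exact mul_mem_infSp h ht' ((isChart_inf h).pow_mem ht m)
  · have e : t' * t ^ m - x' * x ^ m * linUnit η (0 : Fin g → QBar) =
        x' * x ^ m * (x'⁻¹ * t' * (x⁻¹ * t) ^ m - 1) := by
      have h1 := hx1.ne_zero h
      have h2 := hx'1.ne_zero h
      simp only [linUnit, Pi.zero_apply, zero_smul, Finset.sum_const_zero, add_zero, mul_pow,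
        inv_pow]
      field_simp
    rw [e]
    exact mul_left_mem_small (hx'1.mul h (hx1.pow h m)).1 hfirst

/-- **Multiplicative type**: on an inertia stable group of classes with trivial gluing whose
norms to level `M` are `p`-th powers, inertia at `p` acts through the cyclotomic character. -/
theorem inertia_smul_eq [Nonempty (Pt h)] (H : AddSubgroup (JZero (p * M)))
    (hst : ∀ τ ∈ A.inertiaSubgroupIn ℚ, ∀ y ∈ H, τ • y ∈ H)
    (hconn : ∀ y ∈ H, ConnClass h y) (hnorm : ∀ y ∈ H, NormPow h.hqM y)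
    {τ : GQ} (hτ : τ ∈ A.inertiaSubgroupIn ℚ) {a : ℕ}
    (ha : ∀ ζ : QBar, ζ ^ p = 1 → τ ζ = ζ ^ a) {y : JZero (p * M)} (hy : y ∈ H) :
    τ • y = a • y := by
  classical
  have hp : p.Prime := Fact.out
  obtain ⟨g, η, hη⟩ := exists_completes h
  rcases eq_or_ne y 0 with rfl | hy0
  · rw [nsmul_zero]; exact smul_zero (A := JZero (p * M)) τ
  -- `m ≡ -a` modulo `p`, so it is enough that `z = τ • y + m • y` vanishes
  set m := (p - 1) * a with hm
  have hyp : p • y = 0 := (hconn y hy).nsmul_eq_zero h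
  set z := τ • y + m • y with hz
  suffices hz0 : z = 0 by
    have e : m + a = p * a := by
      rw [hm, ← Nat.succ_mul, Nat.succ_eq_add_one, Nat.sub_add_cancel hp.one_le]
    calc τ • y = τ • y + (m + a) • y := by rw [e, mul_nsmul, hyp, nsmul_zero, add_zero]
      _ = z + a • y := by rw [hz, add_nsmul, add_assoc]
      _ = a • y := by rw [hz0, zero_add]
  by_contra hz0
  have hzH : z ∈ H := add_mem (hst τ hτ y hy) (AddSubgroup.nsmul_mem H hy m)
  -- `y` and `τ • y` have coordinates `c` and `τ c` up to `γ`, with `ε` the leading one, critical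
  obtain ⟨γ, c, i₀, hγ, hγn, -, hrep, hγε, hmax, hcrit⟩ :=
    exists_lead h hη (hconn y hy) (hnorm y hy) hy0
      (Nat.cast_ne_zero.mpr hp.ne_zero : (p : QBar) ≠ 0) h.hA
  set ε := c i₀
  have hε : ε ≠ 0 := fun h0 => by
    rw [h0, map_zero] at hγε
    exact not_lt_zero hγε
  have hu : ∀ i, ε⁻¹ * c i ∈ A := fun i => (dvdA_iff hε).mpr (hmax i)
  have hrepτ := RepClass.galois h hη hτ hγ hrep
  have hεn : ε ∈ A.nonunits := by
    obtain ⟨-, -, -, -, -, -, -, -, -, -, hcn, -⟩ := hrep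
    exact hcn i₀
  obtain ⟨hρA, hρ⟩ := residue_galois_div h.hA hτ ha hcrit
  -- each coordinate is below the critical size
  have ham : p ∣ a + m := ⟨a, by
    rw [hm, add_comm, ← Nat.succ_mul, Nat.succ_eq_add_one, Nat.sub_add_cancel hp.one_le]⟩
  have hlow : ∀ i, ε⁻¹ * (τ (c i) + (m : QBar) * c i) ∈ A.nonunits := fun i =>
    galois_add_mem_nonunits hτ hε (hu i) hρ ham
  obtain ⟨δ, hδ, hδn, hδv, hδγ, hδεε, hδc⟩ := exists_size_below h hε hεn hγε hlow
  have hεγ' : DvdA A ε γ := (dvdA_iff hε).mpr hγε.le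
  have hτc : ∀ i, DvdA A ε (τ (c i)) := fun i => by
    show ε⁻¹ * τ (c i) ∈ A
    have e : ε⁻¹ * τ (c i) = τ (ε⁻¹ * c i) * (ε⁻¹ * τ ε) := by
      have hτε : τ ε ≠ 0 := (map_ne_zero τ).mpr hε
      rw [map_mul, map_inv₀]
      field_simp
    rw [e]
    exact mul_mem ((resLift_of_inertia hτ).mem _ (hu i)) hρA
  have hrep0 : RepClass h η z δ 0 :=
    repClass_add_nsmul_zero h hη hγ hε (Arith.mem_of_mem_nonunits hεn) hεγ' hδγ hδεε hu hτc hδc
      hrep hrepτ
  -- but if `z ≠ 0` it has a coordinate of critical size, and coordinates up to `δ` are unique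
  obtain ⟨γ', c', i', hγ', -, hδγ', hrep', -, -, hcrit'⟩ :=
    exists_lead h hη (hconn z hzH) (hnorm z hzH) hz0 hδ hδn
  have hrep'' : RepClass h η z δ c' := hrep'.mono h hη hγ' hδ hδn hδγ' fun i => by
    show δ⁻¹ * (c' i - c' i) ∈ A
    rw [sub_self, mul_zero]; exact zero_mem A
  have hle := hrep''.unique h hη hδ hδn hrep0 i'
  rw [Pi.zero_apply, sub_zero, dvdA_iff hδ] at hle
  have hp1 : p - 1 ≠ 0 := by have := hp.two_le; omega
  have : A.valuation ε = A.valuation (c' i') :=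
    (pow_left_inj₀ zero_le zero_le hp1).mp (hcrit.trans hcrit'.symm)
  exact absurd (this ▸ hle) (not_le.mpr hδv)

end Fermat.Agent.RT.AtP

end
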