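import Fermat.Agent.Semistable.ModBound
import Fermat.Agent.NewformLocal.Toric.NormRed

/-!
# The norm of `j (p τ)`

The norm to level `M` of `j (p τ)` is a polynomial of degree at most `p + 1` in `j`, with
reduction `j ^ (p + 1)`.
-/

set_option autoImplicit false

noncomputable section

namespace Fermat.Agent.RT.AtP

open ModularCurve Polynomial
open Fermat.Agent.Semistable
open Fermat.Agent.NewformLocal.Toric (normUp qExpand_normUp redL_normUp)
open Arith (QBar)

variable (p M : ℕ) [hp : Fact p.Prime] [NeZero M] (hpM : ¬ p ∣ M)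

/-- The norm of `j (p τ)`. -/
def normU : FB M := normUp p M (downF M p hpM (jM M))

omit M in
/-- At `j = j (p τ)` the modular polynomial is the product over the `p + 1` modular roots. -/
private theorem map_modRel_eq_prod {Φ : QBar[X][X]} (hm : Φ.Monic) (hd : Φ.natDegree = p + 1)
    (h1 : ev2 (jqModC QBar) (qExpand QBar p (jqModC QBar)) Φ = 0)
    (h2 : ev2 (qExpand QBar p (jqModC QBar)) (jqModC QBar) Φ = 0) {u : QBarˣ}
    (hu : IsPrimitiveRoot u p) :
    Φ.map (aeval (qExpand QBar p (jqModC QBar))).toRingHom =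
      ∏ a, (X - C (modRoot p u a)) := by
  set jq : LaurentSeries QBar := qExpand QBar p (jqModC QBar) with hjq
  set r : Fin (p + 1) → LaurentSeries QBar := modRoot p u with hr
  have hroot : ∀ a, (Φ.map (aeval jq).toRingHom).eval (r a) = 0 := by
    intro a
    rw [eval_map]
    show ev2 jq (modRoot p u a) Φ = 0
    induction a using Fin.cases with
    | zero =>
      have h := congrArg (qExpand QBar p) h1
      rw [map_zero, map_ev2 _ (qExpand_const p), qExpand_qExpand] at h
      exact h
    | succ i =>
      have h := congrArg (ModFun.twist (u ^ (i : ℕ))) h2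
      rw [map_zero, map_ev2 _ (twist_const _), ModFun.twist_qExpand_of_pow_eq_one] at h
      · exact h
      · rw [← pow_mul, mul_comm, pow_mul, hu.pow_eq_one, one_pow]
  -- both sides are monic of degree `p + 1` with the same distinct roots
  refine sub_eq_zero.mp (eq_zero_of_natDegree_lt_card_of_eval_eq_zero _
    (modRoot_injective p hp.out.two_le u hu) (fun a => ?_) ?_)
  · rw [eval_sub, hroot, eval_prod, Finset.prod_eq_zero (Finset.mem_univ a) (by simp [hr]),
      sub_zero]
  · have hmm : (Φ.map (aeval jq).toRingHom).Monic := hm.map _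
    have hm' : (∏ a, (X - C (r a))).Monic := monic_prod_of_monic _ _ fun _ _ => monic_X_sub_C _
    have hdd : (Φ.map (aeval jq).toRingHom).degree = (p + 1 : ℕ) := by
      rw [hm.degree_map, degree_eq_natDegree hm.ne_zero, hd]
    have hd' : Polynomial.degree (∏ a, (X - C (r a))) = ((p + 1 : ℕ) : WithBot ℕ) := by
      rw [degree_eq_natDegree hm'.ne_zero, natDegree_finsetProd_X_sub_C_eq_card, Finset.card_univ,
        Fintype.card_fin]
    rw [Fintype.card_fin]
    rcases eq_or_ne (Φ.map (aeval jq).toRingHom - ∏ a, (X - C (r a))) 0 with h | h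
    · rw [h, natDegree_zero]; omega
    · rw [natDegree_lt_iff_degree_lt h, ← hdd]
      exact degree_sub_lt_left (hdd.trans hd'.symm) hmm.ne_zero (hmm.trans hm'.symm)

omit M hp in
/-- A product of twists of `j` has a pole of order at most their number. -/
private theorem coeff_prod_modRoot_succ_eq_zero [NeZero p] (u : QBarˣ) :
    ∀ (s : Finset (Fin p)) (n : ℤ), n < -(s.card : ℤ) →
      (∏ i ∈ s, modRoot p u i.succ).coeff n = 0 := by
  intro s
  induction s using Finset.induction with
  | empty =>
    intro n hn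
    rw [Finset.card_empty] at hn
    rw [Finset.prod_empty, HahnSeries.coeff_one, if_neg (by omega)]
  | insert i s hi ih =>
    intro n hn
    rw [Finset.card_insert_of_notMem hi] at hn
    rw [Finset.prod_insert hi]
    refine coeff_mul_eq_zero_of_lt (a := -1) (fun m hm => ?_) ih n (by push_cast at hn ⊢; omega)
    show (ModFun.twist (u ^ (i : ℕ)) (jqModC QBar)).coeff m = 0
    rw [ModFun.coeff_twist, coeff_jqModC_of_lt QBar hm, mul_zero]

include hpM in
/-- **The norm of `j (p τ)` is a polynomial of degree at most `p + 1` in `j`.** -/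
theorem exists_normU_eq :
    ∃ c : QBar[X], c.natDegree ≤ p + 1 ∧ normU p M hpM = aeval (jM M) c := by
  obtain ⟨A, -⟩ := Arith.exists_liesOverPrime hp.out
  obtain ⟨Φ, hm, hd, -, -, h1, h2⟩ := exists_modRel p A
  obtain ⟨ζ₀, hζ₀⟩ := HasEnoughRootsOfUnity.exists_primitiveRoot QBar p
  set u : QBarˣ := (hζ₀.isUnit hp.out.ne_zero).unit with hudef
  have hu : IsPrimitiveRoot u p :=
    IsPrimitiveRoot.coe_units_iff.mp (by simpa [hudef] using hζ₀)
  set jq : LaurentSeries QBar := qExpand QBar p (jqModC QBar) with hjq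
  set r : Fin (p + 1) → LaurentSeries QBar := modRoot p u with hr
  -- after `q ↦ q ^ p` the norm is the product of the modular roots
  have hexp : qExpand QBar p (normU p M hpM : LSer) = ∏ a, r a := by
    rw [normU, qExpand_normUp p M hpM hu, Fin.prod_univ_succ]
    congr 1
    · show _ = qExpand QBar (p * p) (jqModC QBar)
      rw [coe_downF, coe_jM, qExpand_qExpand]
    · refine Finset.prod_congr rfl fun i _ => ?_
      show _ = ModFun.twist _ (jqModC QBar)
      rw [wEquiv_downF, coe_upF, coe_jM]
  have hprod := map_modRel_eq_prod p hm hd h1 h2 hu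
  -- so the norm, the product of the roots, is the constant coefficient up to sign
  set c : QBar[X] := C ((-1 : QBar) ^ (p + 1)) * Φ.coeff 0 with hc
  have hcj : qExpand QBar p (aeval (jqModC QBar) c) = ∏ a, r a := by
    have h0 := congrArg (fun P => P.eval 0) hprod
    simp only [eval_prod, eval_sub, eval_X, eval_C, zero_sub, ← coeff_zero_eq_eval_zero,
      coeff_map] at h0
    change aeval jq (Φ.coeff 0) = _ at h0
    rw [map_aevalPoly _ (qExpand_const p), ← hjq, hc, map_mul, aeval_C, h0, map_pow, map_neg,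
      map_one, Finset.prod_neg, Finset.card_univ, Fintype.card_fin, ← mul_assoc, ← mul_pow,
      neg_one_mul, neg_neg, one_pow, one_mul]
  refine ⟨c, ?_, Subtype.ext (qExpand_injective p ?_)⟩
  · -- the product has a pole of order at most `p ^ 2 + p` in `q`
    by_contra hlt
    push Not at hlt
    have hc0 : c ≠ 0 := fun h => by rw [h, natDegree_zero] at hlt; omega
    have hne : (∏ a, r a).coeff ((p : ℤ) * -(c.natDegree : ℤ)) ≠ 0 := by
      rw [← hcj, qExpand_coeff_mul, Igusa.coeff_aeval_jqModC_neg_natDegree]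
      exact leadingCoeff_ne_zero.mpr hc0
    refine hne ?_
    rw [Fin.prod_univ_succ]
    refine coeff_mul_eq_zero_of_lt (a := -((p : ℤ) * p)) (fun m hm => ?_)
      (coeff_prod_modRoot_succ_eq_zero p u Finset.univ) _ ?_
    · show (qExpand QBar (p * p) (jqModC QBar)).coeff m = 0
      by_cases h : ((p * p : ℕ) : ℤ) ∣ m
      · obtain ⟨k, rfl⟩ := h
        rw [qExpand_coeff_mul]
        refine coeff_jqModC_of_lt QBar ?_
        push_cast at hm
        have hpp : (0 : ℤ) < (p : ℤ) * p := by have := hp.out.pos; positivity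
        nlinarith
      · exact qExpand_coeff_of_not_dvd _ _ h
    · rw [Finset.card_univ, Fintype.card_fin]
      have h' : ((p : ℤ) + 1) + 1 ≤ (c.natDegree : ℤ) := by exact_mod_cast hlt
      have := hp.out.pos
      nlinarith
  · rw [hexp, ← hcj]
    congr 1
    rw [← coe_jM M]
    exact (aeval_algHom_apply (FB M).val (jM M) c)

variable {A : ValuationSubring QBar} [CharP (Res A) p]

/-- The reduction of the norm is `j ^ (p + 1)`. -/
theorem redL_normU (hA : A.LiesOverPrime p) :
    ∃ h : (normU p M hpM : LSer) ∈ locS A,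
      redL A ⟨_, h⟩ = jqModC (Res A) ^ (p + 1) := by
  have hj : (jM M : LSer) ∈ locS A := (mem_loc1 M).mp (jM_mem M)
  have hU := (mem_loc2_iff M p hpM).mp (downF_mem_loc2 M p hpM (jM_mem (A := A) M))
  have h1 : ∀ {z : LSer}, algebraMap QBar LSer 1 * z = z := fun {z} => by rw [map_one, one_mul]
  have ha : algebraMap QBar LSer 1 * (downF M p hpM (jM M) : LSer) ∈ locS A := by
    rw [h1]; exact hU.1
  have hb : algebraMap QBar LSer 1 * (wEquiv p M hpM (downF M p hpM (jM M)) : LSer) ∈ locS A := by
    rw [h1]; exact hU.2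
  have er : redL A ⟨_, hj⟩ = jqModC (Res A) := (red1_eq M ⟨jM M, jM_mem M⟩).symm.trans (red1_jM M)
  have ea : redL A ⟨_, ha⟩ = jqModC (Res A) ^ p := by
    rw [redL_congr _ (qExpand_mem_locS p hj) (h1.trans (coe_downF M p hpM _)),
      redL_qExpand p hj, er, ← pow_eq_qExpand_gen_one]
  have eb : redL A ⟨_, hb⟩ = jqModC (Res A) := by
    rw [redL_congr _ hj (h1.trans (by rw [wEquiv_downF, coe_upF])), er]
  have hne : jqModC (Res A) ≠ 0 := jqModC_ne_zero_of_nontrivial (Res A)
  obtain ⟨hm, e⟩ := redL_normUp hpM hA ha hb (by rw [ea]; exact pow_ne_zero _ hne)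
    (by rw [eb]; exact hne)
  have e1 : (normU p M hpM : LSer) =
      algebraMap QBar LSer (1 * 1 ^ p) * (normUp p M (downF M p hpM (jM M)) : LSer) := by
    rw [one_pow, mul_one, h1]; rfl
  refine ⟨e1 ▸ hm, ?_⟩
  rw [redL_congr _ hm e1, e, ea, eb, coeffMap_jqModC, pow_succ]

end Fermat.Agent.RT.AtP

end
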